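/-
GATE-L / PREP L1-W2 (H1) (helper54): the Atkin–Lehner matrix `W_Q = [[Q x, y], [Q N', Q]]`
(`N = Q N'`, `gcd(Q, N') = 1`, `Q x - N' y = 1`) at a HALL divisor `Q ∥ N`, as an element of
`GL(2, ℝ)⁺`, and the single function identity

  `j(Q₁ d' · W_Q τ) = j(Q₂ d' · τ)`     (`Q = Q₁ Q₂`, `d' ∣ N'`)

(pure `SL(2, ℤ)`-invariance of `j`; `γ = [[Q₁ x, d' y], [N'/d', Q₂]]`).  For `Q = q` prime this is
helper42's `GK/AL/WMatrix.lean` (`(Q₁,Q₂) = (1,q)` and `(q,1)`); for `Q = q²` it gives the three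
cases `(1,q²)`, `(q,q)`, `(q²,1)` needed at level `q² M'` (GATE-L).
-/
import Mathlib
import Fermat.Agent.GJ.J2.MerGL
import Fermat.Agent.S28.CuspExpansion2

set_option autoImplicit false

open UpperHalfPlane Complex
open scoped MatrixGroups

noncomputable section

namespace Fermat.Agent.GL.AL

open Fermat.Agent.S28 Fermat.Agent.S28.CuspExp Fermat.Agent.GJ.MerGL

/-- Bezout data for the Atkin–Lehner matrix at a Hall divisor: `Q x - N' y = 1`. -/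
structure HallData (Q N' : ℕ) where
  x : ℤ
  y : ℤ
  rel : (Q : ℤ) * x - (N' : ℤ) * y = 1

theorem exists_hallData {Q N' : ℕ} (h : Nat.Coprime Q N') : Nonempty (HallData Q N') := by
  have h1 := Int.gcd_eq_gcd_ab (Q : ℤ) (N' : ℤ)
  have h2 : Int.gcd (Q : ℤ) (N' : ℤ) = 1 := by
    rw [Int.gcd_natCast_natCast]; exact h
  rw [h2] at h1
  refine ⟨⟨Int.gcdA Q N', -Int.gcdB Q N', ?_⟩⟩
  push_cast at h1
  linarith

variable {Q N' : ℕ}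

/-- the real matrix `[[Q x, y], [Q N', Q]]` -/
def wMatQ (D : HallData Q N') : Matrix (Fin 2) (Fin 2) ℝ :=
  !![(Q : ℝ) * D.x, (D.y : ℝ); (Q : ℝ) * N', (Q : ℝ)]

theorem det_wMatQ (D : HallData Q N') : (wMatQ D).det = Q := by
  have h : ((Q : ℝ) * D.x - (N' : ℝ) * D.y) = 1 := by exact_mod_cast D.rel
  rw [wMatQ, Matrix.det_fin_two_of]
  linear_combination (Q : ℝ) * h

/-- the Atkin–Lehner matrix as an element of `GL(2, ℝ)` -/
def wGLQ (hQ : 0 < Q) (D : HallData Q N') : GL (Fin 2) ℝ :=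
  Matrix.GeneralLinearGroup.mkOfDetNeZero (wMatQ D) (by
    rw [det_wMatQ]; exact_mod_cast hQ.ne')

theorem det_wGLQ (hQ : 0 < Q) (D : HallData Q N') : (wGLQ hQ D).det.val = Q := by
  show (wMatQ D).det = Q
  exact det_wMatQ D

/-- the Atkin–Lehner matrix as an element of `GL(2, ℝ)⁺` -/
def wPQ (hQ : 0 < Q) (D : HallData Q N') : P :=
  ⟨wGLQ hQ D, by
    show 0 < (wGLQ hQ D).det.val
    rw [det_wGLQ]; exact_mod_cast hQ⟩

theorem coe_wPQ_smul (hQ : 0 < Q) (D : HallData Q N') (τ : ℍ) :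
    ((wPQ hQ D • τ : ℍ) : ℂ) =
      ((Q : ℂ) * D.x * τ + D.y) / ((Q : ℂ) * N' * τ + Q) := by
  have hdet : 0 < (wGLQ hQ D).det.val := by rw [det_wGLQ]; exact_mod_cast hQ
  rw [P_smul_def]
  show ((wGLQ hQ D • τ : ℍ) : ℂ) = _
  rw [UpperHalfPlane.coe_smul_of_det_pos hdet]
  simp [UpperHalfPlane.num, UpperHalfPlane.denom, wGLQ, wMatQ]

/-- `N' τ + 1` does not vanish on the upper half plane -/
theorem hallDen_ne_zero' (τ : ℍ) : (N' : ℂ) * τ + 1 ≠ 0 := by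
  intro h2
  have h3 := congrArg Complex.im h2
  have h4 := congrArg Complex.re h2
  simp at h3 h4
  rcases h3 with h3 | h3
  · rw [h3] at h4; simp at h4
  · exact τ.im_ne_zero h3

/-- the denominator `Q N' τ + Q` does not vanish -/
theorem hallDen_ne_zero (hQ : 0 < Q) (τ : ℍ) : (Q : ℂ) * N' * τ + Q ≠ 0 := by
  intro h
  have h1 : (Q : ℂ) * ((N' : ℂ) * τ + 1) = 0 := by rw [← h]; ring
  have hQ' : (Q : ℂ) ≠ 0 := by exact_mod_cast hQ.ne'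
  exact hallDen_ne_zero' (N' := N') τ ((mul_eq_zero.mp h1).resolve_left hQ')

section Identities

variable (D : HallData Q N') {Q₁ Q₂ d : ℕ} (hQQ : Q₁ * Q₂ = Q) (hd : 0 < d) (hdN : d ∣ N')

/-- the matrix `[[Q₁ x, d y], [N'/d, Q₂]] ∈ SL(2, ℤ)` -/
def mHall : SL(2, ℤ) :=
  ⟨!![(Q₁ : ℤ) * D.x, (d : ℤ) * D.y; ((N' / d : ℕ) : ℤ), (Q₂ : ℤ)], by
    obtain ⟨e, rfl⟩ := hdN
    rw [Matrix.det_fin_two_of, Nat.mul_div_cancel_left _ hd]
    have := D.rel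
    have hQc : (Q : ℤ) = (Q₁ : ℤ) * (Q₂ : ℤ) := by rw [← hQQ]; push_cast; ring
    rw [hQc] at this
    push_cast at this ⊢
    linarith⟩

include hQQ in
theorem dilate_wPQ_smul (hQ : 0 < Q) (h1 : 0 < Q₁ * d) (h2 : 0 < Q₂ * d) (τ : ℍ) :
    dilate (Q₁ * d) h1 (wPQ hQ D • τ) = mHall D hQQ hd hdN • dilate (Q₂ * d) h2 τ := by
  apply UpperHalfPlane.ext
  rw [coe_dilate, coe_wPQ_smul, UpperHalfPlane.coe_specialLinearGroup_apply, coe_dilate]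
  obtain ⟨e, rfl⟩ := hdN
  have hden := hallDen_ne_zero (N' := d * e) hQ τ
  have hden' := hallDen_ne_zero' (N' := d * e) τ
  have hd' : (d : ℂ) ≠ 0 := by exact_mod_cast hd.ne'
  have hQ' : (Q : ℂ) ≠ 0 := by exact_mod_cast hQ.ne'
  have hQ₁ : (Q₁ : ℂ) ≠ 0 := by
    have : 0 < Q₁ := Nat.pos_of_ne_zero (by rintro rfl; simp at h1)
    exact_mod_cast this.ne'
  have hQ₂ : (Q₂ : ℂ) ≠ 0 := by
    have : 0 < Q₂ := Nat.pos_of_ne_zero (by rintro rfl; simp at h2)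
    exact_mod_cast this.ne'
  have hQc : (Q : ℂ) = (Q₁ : ℂ) * (Q₂ : ℂ) := by rw [← hQQ]; push_cast; ring
  simp only [mHall, Matrix.SpecialLinearGroup.coe_mk, Matrix.of_apply, Matrix.cons_val',
    Matrix.cons_val_zero, Matrix.cons_val_one, Matrix.empty_val', Matrix.cons_val_fin_one,
    Nat.mul_div_cancel_left _ hd]
  have hden2 : ((algebraMap ℤ ℝ ((e : ℕ) : ℤ) : ℝ) : ℂ) * (((Q₂ * d : ℕ) : ℂ) * (τ : ℂ)) +
      ((algebraMap ℤ ℝ (Q₂ : ℤ) : ℝ) : ℂ) = (Q₂ : ℂ) * (((d * e : ℕ) : ℂ) * τ + 1) := by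
    push_cast
    ring
  have hnum : ((algebraMap ℤ ℝ ((Q₁ : ℤ) * D.x) : ℝ) : ℂ) * (((Q₂ * d : ℕ) : ℂ) * (τ : ℂ)) +
      ((algebraMap ℤ ℝ ((d : ℤ) * D.y) : ℝ) : ℂ) =
      (d : ℂ) * ((Q : ℂ) * D.x * τ + D.y) := by
    rw [hQc]
    push_cast
    simp
    ring
  have hden4 : (Q : ℂ) * ((d * e : ℕ) : ℂ) * τ + Q =
      (Q₁ : ℂ) * ((Q₂ : ℂ) * (((d * e : ℕ) : ℂ) * τ + 1)) := by rw [hQc]; ring
  rw [hden2, hnum, hden4]
  push_cast
  field_simp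

include hQQ hd hdN in
/-- **`j(Q₁ d · W_Q τ) = j(Q₂ d · τ)`** for `Q = Q₁ Q₂`, `d ∣ N'` -/
theorem jDil_wPQ_smul (hQ : 0 < Q) (h1 : 0 < Q₁ * d) (h2 : 0 < Q₂ * d) (τ : ℍ) :
    jDil (Q₁ * d) h1 (wPQ hQ D • τ) = jDil (Q₂ * d) h2 τ := by
  rw [jDil, jDil, dilate_wPQ_smul D hQQ hd hdN hQ h1 h2, jFun_smul]

end Identities

end Fermat.Agent.GL.AL
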