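/-
GATE-L / PREP L1-W2 (H2) (helper54): the Atkin–Lehner automorphism `W_Q` of the function field
`F_N = ℚ̄(j(q^d) : d ∣ N)` of `X₀(N)` at a HALL divisor `Q ∥ N` (`Q ∣ N`, `gcd(Q, N/Q) = 1`):

  `wAutQ : FN N ≃ₐ[Kbar] FN N`,   `wAutQ (gen d) = gen (swapHall d)`,   `wAutQ ∘ wAutQ = id`,

where `swapHall d = (Q / gcd(d,Q)) · (d / gcd(d,Q))` (for `Q = q²`: `q^a d' ↦ q^(2-a) d'`, `q ∤ d'`);
in the realisation of `F_N` by meromorphic functions on `ℍ` it is `f ↦ f ∘ W_Q`.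
Generalises helper42's `GK/AL/WAut.lean` (`Q = q` prime, `q ∥ N`); same proof.
-/
import Mathlib
import Fermat.Agent.GL.AL.WHallMatrix
import Fermat.Agent.GK.AL.WAut

set_option autoImplicit false

open UpperHalfPlane Complex
open scoped MatrixGroups

noncomputable section

namespace Fermat.Agent.GL.AL

open Fermat.Agent.S24 Fermat.Agent.S28 Fermat.Agent.S28.CuspExp Fermat.Agent.GJ.MerGL
open Fermat.Agent.S24_helper62 Fermat.Agent.S24_helper82 ModularCurve Fermat.Agent.GK.AL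

/-- `Q` is a Hall divisor of `N`: `Q ∣ N` and `gcd(Q, N / Q) = 1`. -/
structure HallDvd (Q N : ℕ) : Prop where
  pos : 0 < Q
  dvd : Q ∣ N
  coprime : Nat.Coprime Q (N / Q)

namespace HallDvd

variable {Q N : ℕ} (h : HallDvd Q N)

include h

theorem mul_div : Q * (N / Q) = N := Nat.mul_div_cancel' h.dvd

/-- the `Q`-part `gcd(d, Q)` of a divisor `d` of `N` -/
theorem gcd_pos (d : ℕ) : 0 < Nat.gcd d Q := Nat.gcd_pos_of_pos_right d h.pos

/-- the prime-to-`Q` part `d / gcd(d, Q)` of a divisor `d` of `N` divides `N / Q` -/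
theorem div_gcd_dvd {d : ℕ} (hd : d ∣ N) : d / Nat.gcd d Q ∣ N / Q := by
  set g := Nat.gcd d Q with hg
  have hgpos : 0 < g := h.gcd_pos d
  obtain ⟨d', hd'⟩ : g ∣ d := Nat.gcd_dvd_left d Q
  obtain ⟨Q₂, hQ₂⟩ : g ∣ Q := Nat.gcd_dvd_right d Q
  have hcop : Nat.Coprime d' Q₂ := by
    have := Nat.coprime_div_gcd_div_gcd (m := d) (n := Q) hgpos
    rwa [← hg, hd', hQ₂, Nat.mul_div_cancel_left _ hgpos, Nat.mul_div_cancel_left _ hgpos] at this
  have h1 : d / g = d' := by rw [hd', Nat.mul_div_cancel_left _ hgpos]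
  rw [h1]
  have h2 : g * d' ∣ g * (Q₂ * (N / Q)) := by
    rw [← hd', ← mul_assoc, ← hQ₂, h.mul_div]; exact hd
  have h3 : d' ∣ Q₂ * (N / Q) := (Nat.mul_dvd_mul_iff_left hgpos).mp h2
  exact hcop.dvd_of_dvd_mul_left h3

/-- the prime-to-`Q` part of a divisor of `N` is prime to `Q` -/
theorem coprime_div_gcd {d : ℕ} (hd : d ∣ N) : Nat.Coprime (d / Nat.gcd d Q) Q :=
  (Nat.Coprime.coprime_dvd_right (h.div_gcd_dvd hd) h.coprime).symm

theorem swap_dvd {d : ℕ} (hd : d ∣ N) : Q / Nat.gcd d Q * (d / Nat.gcd d Q) ∣ N := by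
  have h1 : Q / Nat.gcd d Q ∣ Q := Nat.div_dvd_of_dvd (Nat.gcd_dvd_right d Q)
  have := Nat.mul_dvd_mul h1 (h.div_gcd_dvd hd)
  rwa [h.mul_div] at this

/-- the `Q`-part of the swapped divisor -/
theorem gcd_swap {d : ℕ} (hd : d ∣ N) :
    Nat.gcd (Q / Nat.gcd d Q * (d / Nat.gcd d Q)) Q = Q / Nat.gcd d Q := by
  rw [Nat.Coprime.gcd_mul_right_cancel _ (h.coprime_div_gcd hd)]
  exact Nat.gcd_eq_left (Nat.div_dvd_of_dvd (Nat.gcd_dvd_right d Q))

theorem swap_swap {d : ℕ} (hd : d ∣ N) :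
    Q / Nat.gcd (Q / Nat.gcd d Q * (d / Nat.gcd d Q)) Q *
      (Q / Nat.gcd d Q * (d / Nat.gcd d Q) / Nat.gcd (Q / Nat.gcd d Q * (d / Nat.gcd d Q)) Q) =
      d := by
  rw [h.gcd_swap hd]
  have hgpos : 0 < Nat.gcd d Q := h.gcd_pos d
  have hg : Nat.gcd d Q ∣ Q := Nat.gcd_dvd_right d Q
  have hQ2pos : 0 < Q / Nat.gcd d Q := Nat.div_pos (Nat.le_of_dvd h.pos hg) hgpos
  rw [Nat.div_div_self hg h.pos.ne', Nat.mul_div_cancel_left _ hQ2pos]
  exact Nat.mul_div_cancel' (Nat.gcd_dvd_left d Q)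

end HallDvd

variable {Q N : ℕ}

/-! ### The swap of the index set -/

/-- the swap `d ↦ (Q / gcd(d,Q)) · (d / gcd(d,Q))` on the divisors of `N` -/
def swapHallFun (h : HallDvd Q N) (d : DivIdx N) : DivIdx N :=
  ⟨Q / Nat.gcd d.1 Q * (d.1 / Nat.gcd d.1 Q), h.swap_dvd d.2⟩

theorem swapHallFun_val (h : HallDvd Q N) (d : DivIdx N) :
    (swapHallFun h d).1 = Q / Nat.gcd d.1 Q * (d.1 / Nat.gcd d.1 Q) := rfl

theorem swapHallFun_swapHallFun (h : HallDvd Q N) (d : DivIdx N) :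
    swapHallFun h (swapHallFun h d) = d :=
  Subtype.ext (h.swap_swap d.2)

/-- the swap as a permutation of the divisors of `N` -/
def swapHall (h : HallDvd Q N) : DivIdx N ≃ DivIdx N where
  toFun := swapHallFun h
  invFun := swapHallFun h
  left_inv := swapHallFun_swapHallFun h
  right_inv := swapHallFun_swapHallFun h

@[simp] theorem swapHall_apply (h : HallDvd Q N) (d : DivIdx N) :
    swapHall h d = swapHallFun h d := rfl

theorem swapHall_val (h : HallDvd Q N) (d : DivIdx N) :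
    (swapHall h d).1 = Q / Nat.gcd d.1 Q * (d.1 / Nat.gcd d.1 Q) := rfl

theorem swapHall_swapHall (h : HallDvd Q N) (d : DivIdx N) : swapHall h (swapHall h d) = d :=
  swapHallFun_swapHallFun h d

/-- the swap of `Q₁ d'` (`Q₁ Q₂ = Q`, `d' ∣ N / Q`) is `Q₂ d'` -/
theorem swapHall_val_of_eq (h : HallDvd Q N) (d : DivIdx N) {Q₁ Q₂ d' : ℕ} (hQQ : Q₁ * Q₂ = Q)
    (hd' : d' ∣ N / Q) (hd : d.1 = Q₁ * d') : (swapHall h d).1 = Q₂ * d' := by
  have hQ₁pos : 0 < Q₁ := Nat.pos_of_ne_zero (by rintro rfl; simp at hQQ; exact h.pos.ne' hQQ.symm)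
  have hcop : Nat.Coprime d' Q := (Nat.Coprime.coprime_dvd_right hd' h.coprime).symm
  have hg : Nat.gcd d.1 Q = Q₁ := by
    rw [hd, Nat.Coprime.gcd_mul_right_cancel _ hcop]
    exact Nat.gcd_eq_left ⟨Q₂, hQQ.symm⟩
  rw [swapHall_val, hg, hd, Nat.mul_div_cancel_left _ hQ₁pos, ← hQQ,
    Nat.mul_div_cancel_left _ hQ₁pos]

/-! ### The function identity on `ℍ` -/

section Fn

variable [NeZero N] (h : HallDvd Q N) (D : HallData Q (N / Q))

omit [NeZero N] in
/-- the identity for a prescribed splitting `d = g d'`, `Q = g Q₂` -/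
theorem jDil_swap_aux {d g d' Q₂ s : ℕ} (hQQ : g * Q₂ = Q) (hd1 : g * d' = d)
    (hd' : d' ∣ N / Q) (hs : s = Q₂ * d') (hdpos : 0 < d) (hspos : 0 < s) (τ : ℍ) :
    jDil s hspos τ = jDil d hdpos (wPQ h.pos D • τ) := by
  subst hs
  subst hd1
  have hgpos : 0 < g := Nat.pos_of_ne_zero (by rintro rfl; simp at hdpos)
  have hd'pos : 0 < d' := Nat.pos_of_ne_zero (by rintro rfl; simp at hdpos)
  exact (jDil_wPQ_smul D hQQ hd'pos hd' h.pos hdpos hspos τ).symm

/-- **`j(swap(d) τ) = j(d · W_Q τ)`** -/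
theorem genFn_swapHall (d : DivIdx N) (τ : ℍ) :
    genFn N (swapHall h d) τ = genFn N d (wPQ h.pos D • τ) := by
  have hgQ : Nat.gcd d.1 Q ∣ Q := Nat.gcd_dvd_right d.1 Q
  have hgd : Nat.gcd d.1 Q ∣ d.1 := Nat.gcd_dvd_left d.1 Q
  exact jDil_swap_aux h D (Nat.mul_div_cancel' hgQ) (Nat.mul_div_cancel' hgd)
    (h.div_gcd_dvd d.2) (swapHall_val h d) (DivIdx.pos N d) (DivIdx.pos N (swapHall h d)) τ

theorem polyFn_rename_swapHall (P : MvPolynomial (DivIdx N) ℂ) (τ : ℍ) :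
    polyFn N (MvPolynomial.rename (swapHall h) P) τ = polyFn N P (wPQ h.pos D • τ) := by
  show MvPolynomial.eval (fun d => genFn N d τ) (MvPolynomial.rename (swapHall h) P) =
    MvPolynomial.eval (fun d => genFn N d (wPQ h.pos D • τ)) P
  rw [MvPolynomial.eval_rename]
  have hfun : ((fun d => genFn N d τ) ∘ ⇑(swapHall h)) =
      fun d => genFn N d (wPQ h.pos D • τ) := by
    funext d
    exact genFn_swapHall h D d τ
  rw [hfun]

end Fn

/-! ### The automorphism -/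

section Aut

variable [NeZero N] (h : HallDvd Q N)

/-- relations among the generators are stable under the swap -/
theorem aeval_rename_swapHall_eq_zero (P : MvPolynomial (DivIdx N) Kbar)
    (hP : MvPolynomial.aeval (jFam Kbar N) P = 0) :
    MvPolynomial.aeval (jFam Kbar N) (MvPolynomial.rename (swapHall h) P) = 0 := by
  obtain ⟨D⟩ := exists_hallData h.coprime
  rw [aeval_jFam_eq_zero_iff_polyFn] at hP ⊢
  rw [MvPolynomial.map_rename]
  funext τ
  rw [polyFn_rename_swapHall h D, hP]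
  rfl

theorem hker_swapHall (P : MvPolynomial (DivIdx N) Kbar) :
    MvPolynomial.aeval (jFam Kbar N) P = 0 ↔
      MvPolynomial.aeval (fun d => gen N (swapHall h d)) P = 0 := by
  have key : ((MvPolynomial.aeval (fun d => gen N (swapHall h d)) P : FN N) :
      LaurentSeries Kbar) =
      MvPolynomial.aeval (jFam Kbar N) (MvPolynomial.rename (swapHall h) P) := by
    rw [coe_aeval_FN, MvPolynomial.aeval_rename]
    rfl
  constructor
  · intro hP
    apply Subtype.ext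
    rw [key, aeval_rename_swapHall_eq_zero h P hP]
    rfl
  · intro hP
    have h1 : MvPolynomial.aeval (jFam Kbar N) (MvPolynomial.rename (swapHall h) P) = 0 := by
      rw [← key, hP]; rfl
    have h2 := aeval_rename_swapHall_eq_zero h _ h1
    rw [MvPolynomial.rename_rename] at h2
    have h3 : (swapHall h : DivIdx N → DivIdx N) ∘ (swapHall h) = id := by
      funext d; exact swapHall_swapHall h d
    rwa [h3, MvPolynomial.rename_id_apply] at h2

/-- the Atkin–Lehner endomorphism on `ℚ̄(j(q^d))` -/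
def wAdjoinQ : IntermediateField.adjoin Kbar (Set.range (jFam Kbar N)) →ₐ[Kbar] FN N :=
  (exists_algHom_adjoin_field_two (jFam Kbar N) (fun d => gen N (swapHall h d))
    (hker_swapHall h)).choose

theorem wAdjoinQ_gen (d : DivIdx N) :
    wAdjoinQ h ⟨jFam Kbar N d, IntermediateField.subset_adjoin Kbar _ ⟨d, rfl⟩⟩ =
      gen N (swapHall h d) :=
  (exists_algHom_adjoin_field_two (jFam Kbar N) (fun d => gen N (swapHall h d))
    (hker_swapHall h)).choose_spec d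

/-- the Atkin–Lehner endomorphism of `F_N` -/
def wHomQ : FN N →ₐ[Kbar] FN N :=
  (wAdjoinQ h).comp (IntermediateField.equivOfEq (FN_eq_adjoin N)).toAlgHom

theorem wHomQ_gen (d : DivIdx N) : wHomQ h (gen N d) = gen N (swapHall h d) := by
  have h2 : (IntermediateField.equivOfEq (FN_eq_adjoin N)) (gen N d) =
      ⟨jFam Kbar N d, IntermediateField.subset_adjoin Kbar _ ⟨d, rfl⟩⟩ := Subtype.ext rfl
  show wAdjoinQ h ((IntermediateField.equivOfEq (FN_eq_adjoin N)) (gen N d)) = _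
  rw [h2, wAdjoinQ_gen]

theorem wHomQ_wHomQ (f : FN N) : wHomQ h (wHomQ h f) = f := by
  have : (wHomQ h).comp (wHomQ h) = AlgHom.id Kbar (FN N) := by
    apply algHom_ext_gen
    intro d
    show wHomQ h (wHomQ h (gen N d)) = gen N d
    rw [wHomQ_gen, wHomQ_gen, swapHall_swapHall]
  exact DFunLike.congr_fun this f

/-- **the Atkin–Lehner automorphism `W_Q` of `F_N`** at a Hall divisor `Q ∥ N` -/
def wAutQ : FN N ≃ₐ[Kbar] FN N :=
  AlgEquiv.ofAlgHom (wHomQ h) (wHomQ h)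
    (AlgHom.ext fun f => wHomQ_wHomQ h f) (AlgHom.ext fun f => wHomQ_wHomQ h f)

@[simp] theorem wAutQ_gen (d : DivIdx N) : wAutQ h (gen N d) = gen N (swapHall h d) :=
  wHomQ_gen h d

theorem wAutQ_wAutQ (f : FN N) : wAutQ h (wAutQ h f) = f := wHomQ_wHomQ h f

theorem wAutQ_symm : (wAutQ h).symm = wAutQ h := by
  refine AlgEquiv.ext fun f => ?_
  rw [AlgEquiv.symm_apply_eq, wAutQ_wAutQ]

end Aut

/-! ### Special cases -/

/-- a prime `q ∥ N` is a Hall divisor -/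
theorem HallDvd.of_exactDvd {q N : ℕ} (h : ExactDvd q N) : HallDvd q N :=
  ⟨h.pos, h.dvd, h.coprime⟩

/-- `q²` for a prime `q` with `q² ∣ N`, `q³ ∤ N` is a Hall divisor -/
theorem HallDvd.of_sq {q N : ℕ} (hq : q.Prime) (h2 : q ^ 2 ∣ N) (h3 : ¬ q ^ 3 ∣ N) :
    HallDvd (q ^ 2) N := by
  refine ⟨pow_pos hq.pos 2, h2, ?_⟩
  apply Nat.Coprime.pow_left
  rw [Nat.Prime.coprime_iff_not_dvd hq]
  intro h
  apply h3
  have := Nat.mul_dvd_mul_left (q ^ 2) h
  rwa [Nat.mul_div_cancel' h2, ← pow_succ] at this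

end Fermat.Agent.GL.AL
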