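/-
GATE-L / PREP L1-W2 (H3a) (helper54): the Atkin–Lehner automorphism `wAutQ` of `F_N` at a Hall
divisor `Q ∥ N` commutes with the coefficientwise action of `G_ℚ = Gal(ℚ̄/ℚ)` (it is defined over
`ℚ`).  Generalises helper42's `GK/AL/WGal.lean`.
-/
import Mathlib
import Fermat.Agent.GL.AL.WHallAut
import Fermat.Agent.GK.AL.WGal

set_option autoImplicit false

noncomputable section

namespace Fermat.Agent.GL.AL

open Fermat.Agent.S24 Fermat.Agent.S24_helper62 Fermat.Agent.S24_helper82 ModularCurve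
open Fermat.Agent.GK.AL

variable {Q N : ℕ} [NeZero N] (h : HallDvd Q N)

/-- the `σ`-twist of `wAutQ` as a `ℚ̄`-algebra homomorphism -/
def wTwistQ (σ : Kbar ≃ₐ[ℚ] Kbar) : FN N →ₐ[Kbar] FN N where
  toFun f := (galF N σ).symm (wAutQ h (galF N σ f))
  map_one' := by simp
  map_mul' a b := by simp
  map_zero' := by simp
  map_add' a b := by simp
  commutes' c := by
    show (galF N σ).symm (wAutQ h (galF N σ (algebraMap Kbar (FN N) c))) = _
    rw [galF_algebraMap, AlgEquiv.commutes, galF_symm_algebraMap, AlgEquiv.symm_apply_apply]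

theorem wTwistQ_apply (σ : Kbar ≃ₐ[ℚ] Kbar) (f : FN N) :
    wTwistQ h σ f = (galF N σ).symm (wAutQ h (galF N σ f)) := rfl

theorem wTwistQ_eq (σ : Kbar ≃ₐ[ℚ] Kbar) : wTwistQ h σ = (wAutQ h).toAlgHom := by
  apply algHom_ext_gen
  intro d
  show (galF N σ).symm (wAutQ h (galF N σ (gen N d))) = wAutQ h (gen N d)
  rw [galF_gen, wAutQ_gen, RingEquiv.symm_apply_eq, galF_gen]

/-- **`W_Q` is defined over `ℚ`**: it commutes with the coefficientwise Galois action. -/
theorem wAutQ_galF (σ : Kbar ≃ₐ[ℚ] Kbar) (f : FN N) :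
    wAutQ h (galF N σ f) = galF N σ (wAutQ h f) := by
  have h1 := DFunLike.congr_fun (wTwistQ_eq h σ) f
  rw [wTwistQ_apply] at h1
  rw [RingEquiv.symm_apply_eq] at h1
  exact h1

/-- the same statement, spelled with the prelude's `arithmeticRingAut` -/
theorem wAutQ_arithmeticRingAut (σ : Kbar ≃ₐ[ℚ] Kbar) (f : FN N) :
    wAutQ h (arithmeticRingAut (modularFunctionFieldFull N) σ f) =
      arithmeticRingAut (modularFunctionFieldFull N) σ (wAutQ h f) :=
  wAutQ_galF h σ f

end Fermat.Agent.GL.AL
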