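/-
GATE-L / PREP L1-W2 (H4) (helper54): the SECOND Gauss valuation of `F_N = ℚ̄(X₀(N))` at a Hall
divisor `Q ∥ N` (for GATE-L: `Q = q²`, `N = q² M'`).

`A` a valuation subring of `ℚ̄`, `R₁ := redDataBar N A` the Gauss valuation `w₁` at the cusp `∞`.
The second valuation is the transport of `w₁` along the Atkin–Lehner automorphism `W_Q = wAutQ h`:

  `redData2Q N A h : RedData ℚ̄ F_N k (FresBar N A)`, `Rw₂ = Rw₁.comap W_Q`, `red₂ = red₁ ∘ W_Q`.

* `gen_mem_Rw2Q`, `coe_red2Q_gen` : `red₂ j(q^d) = j~(X^{swapHall d})`;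
* `isGaussChart_jF_2Q` : `j` is a Gauss chart (`red₂ j = j~(X^Q)`), `redCompatQ`;
* for `Q = q^e` (`e ≥ 1`), `A` over `q`: `not_Rw1_le_Rw2Q`, `not_Rw2Q_le_Rw1`, `Rw1_ne_Rw2Q`
  (witness `j(q^Q) - j^Q`);
* Galois: the decomposition group of `A` preserves `Rw₂`, `red₂ (σ f) = σ~ (red₂ f)`
  coefficientwise, and inertia acts trivially on the residue field of `w₂`;
* explicit values `W_Q j = j_Q`, `W_Q j_Q = j` and the four `IsRed` facts.

Generalises helper42's `GK/AL/SecondVal.lean`, `SecondValNe.lean`, `SecondValGal.lean` (`Q = q`).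
-/
import Mathlib
import Fermat.Agent.GL.AL.WHallGal
import Fermat.Agent.GK.AL.SecondValGal
import Fermat.Agent.GK.MultiVal.TwoRedData

set_option autoImplicit false

noncomputable section

namespace Fermat.Agent.GL.AL

open HahnSeries ModularCurve IsLocalRing
open Fermat.Agent.S24 Fermat.Agent.S24_helper62 Fermat.Agent.S24_helper82
open Fermat.Agent.GJ.J1 Fermat.Agent.GJ.J1.Val Fermat.Agent.GJ.Kum Fermat.Agent.GK.AL
open Fermat.Agent.GK.MultiVal

/-! ### The second Gauss valuation -/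

section Two

variable {Q : ℕ} (N : ℕ) [NeZero N] (A : ValuationSubring Kbar) (h : HallDvd Q N)

local notation "𝕜" => ResidueField A

/-- **the second Gauss valuation** `w₂ = w₁ ∘ W_Q` of `F_N` -/
def redData2Q : RedData Kbar (FN N) 𝕜 (FresBar N A) :=
  (redDataBar N A).comapAlgEquiv (wAutQ h)

theorem mem_Rw2Q_iff (f : FN N) :
    f ∈ (redData2Q N A h).Rw ↔ wAutQ h f ∈ (redDataBar N A).Rw := Iff.rfl

theorem red2Q_eq (f : FN N) (hf : f ∈ (redData2Q N A h).Rw) :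
    (redData2Q N A h).red ⟨f, hf⟩ = (redDataBar N A).red ⟨wAutQ h f, hf⟩ := rfl

@[simp] theorem redData2Q_A : (redData2Q N A h).A = A := rfl

theorem wAutQ_mem_Rw2Q_iff (f : FN N) :
    wAutQ h f ∈ (redData2Q N A h).Rw ↔ f ∈ (redDataBar N A).Rw := by
  rw [mem_Rw2Q_iff, wAutQ_wAutQ]

theorem mem_nonunits_Rw2Q_iff (f : FN N) :
    f ∈ (redData2Q N A h).Rw.nonunits ↔ wAutQ h f ∈ (redDataBar N A).Rw.nonunits :=
  mem_nonunits_comapAlgEquiv _ _ f

/-- the two reduction data are compatible (same `A`, same residue map) -/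
theorem redCompatQ : RedCompat (redDataBar N A) (redData2Q N A h) :=
  ⟨rfl, fun _ _ _ => rfl⟩

/-! #### the generators -/

theorem gen_mem_Rw2Q (d : DivIdx N) : gen N d ∈ (redData2Q N A h).Rw := by
  rw [mem_Rw2Q_iff, wAutQ_gen]
  exact gen_mem_Rw1 N A _

/-- `red₂ (j(q^d)) = j~(X^{swap d})` (any membership proof) -/
theorem coe_red2Q_gen (d : DivIdx N) (hd : gen N d ∈ (redData2Q N A h).Rw) :
    (((redData2Q N A h).red ⟨gen N d, hd⟩ : FresBar N A) : LaurentSeries 𝕜) =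
      qExpand 𝕜 (swapHall h d).1 (jqModC 𝕜) := by
  rw [red2Q_eq]
  have h1 : (⟨wAutQ h (gen N d), hd⟩ : (redDataBar N A).Rw) =
      ⟨gen N (swapHall h d), gen_mem_Rw1 N A _⟩ := Subtype.ext (wAutQ_gen h d)
  rw [h1, coe_red1_gen]

/-- `j` is a Gauss chart for the second valuation -/
theorem isGaussChart_jF_2Q : (redData2Q N A h).IsGaussChart (jF N) := by
  rw [jF_eq_gen]
  refine ⟨gen_mem_Rw2Q N A h _, ?_⟩
  apply Fres.transcendental_of_coe
  rw [coe_red2Q_gen]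
  exact transcendental_qExpand_jqModC 𝕜 _

end Two

/-! ### The two valuations are incomparable over `q` (`Q = q^e`, `e ≥ 1`) -/

section Ne

variable {Q : ℕ} (N : ℕ) [NeZero N] (A : ValuationSubring Kbar) (h : HallDvd Q N)

local notation "𝕜" => ResidueField A

/-- the index `Q` -/
def idxHall : DivIdx N := ⟨Q, h.dvd⟩

omit [NeZero N] in
theorem swapHall_idxOne_val : (swapHall h (idxOne N)).1 = Q := by
  rw [swapHall_val_of_eq h (idxOne N) (Q₁ := 1) (Q₂ := Q) (d' := 1) (one_mul Q) (one_dvd _)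
    (by show 1 = 1 * 1; rw [mul_one]), mul_one]

omit [NeZero N] in
theorem swapHall_idxHall_val : (swapHall h (idxHall N h)).1 = 1 := by
  rw [swapHall_val_of_eq h (idxHall N h) (Q₁ := Q) (Q₂ := 1) (d' := 1) (mul_one Q) (one_dvd _)
    (by show Q = Q * 1; rw [mul_one]), mul_one]

/-- the witness `j(q^Q) - j^Q` -/
def zHall : FN N := gen N (idxHall N h) - gen N (idxOne N) ^ Q

theorem zHall_mem_Rw1 : zHall N h ∈ (redDataBar N A).Rw :=
  sub_mem (gen_mem_Rw1 N A _) (pow_mem (gen_mem_Rw1 N A _) Q)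

theorem wAutQ_zHall :
    wAutQ h (zHall N h) = gen N (swapHall h (idxHall N h)) - gen N (swapHall h (idxOne N)) ^ Q := by
  rw [zHall, map_sub, map_pow, wAutQ_gen, wAutQ_gen]

theorem zHall_mem_Rw2Q : zHall N h ∈ (redData2Q N A h).Rw := by
  rw [mem_Rw2Q_iff, wAutQ_zHall]
  exact sub_mem (gen_mem_Rw1 N A _) (pow_mem (gen_mem_Rw1 N A _) Q)

/-- `j(X^(ℓ^e)) = j(X)^(ℓ^e)` in characteristic `ℓ` -/
theorem qExpand_pow_jqModC_char (κ : Type*) [Field κ] (ℓ : ℕ) [Fact ℓ.Prime] [NeZero ℓ]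
    [CharP κ ℓ] : ∀ (e : ℕ) [NeZero (ℓ ^ e)],
      qExpand κ (ℓ ^ e) (jqModC κ) = jqModC κ ^ (ℓ ^ e)
  | 0, _ => by
      rw [qExpand_congr (pow_zero ℓ), qExpand_one_apply, pow_zero, pow_one]
  | e + 1, _ => by
      have : NeZero (ℓ ^ e) := ⟨pow_ne_zero e (NeZero.ne ℓ)⟩
      have h1 : qExpand κ (ℓ ^ (e + 1)) (jqModC κ) =
          qExpand κ (ℓ ^ e) (qExpand κ ℓ (jqModC κ)) := by
        rw [qExpand_qExpand]
        exact qExpand_congr (pow_succ ℓ e) _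
      rw [h1, Fermat.Agent.GJ.J3.QS.qExpand_jqModC_char, map_pow,
        qExpand_pow_jqModC_char κ ℓ e, ← pow_mul, pow_succ]

/-- the coefficient of `X^{-1}` in an `ℓ^e`-th power (`e ≥ 1`) vanishes in characteristic `ℓ` -/
theorem coeff_neg_one_pow_pow_char (κ : Type*) [Field κ] (ℓ : ℕ) [Fact ℓ.Prime] [NeZero ℓ]
    [CharP κ ℓ] (e : ℕ) (he : 0 < e) (X : LaurentSeries κ) : (X ^ (ℓ ^ e)).coeff (-1) = 0 := by
  obtain ⟨e', rfl⟩ : ∃ e', e = e' + 1 := ⟨e - 1, by omega⟩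
  rw [pow_succ, pow_mul]
  exact coeff_neg_one_pow_char κ ℓ _

variable {q : ℕ} (hq : q.Prime) {e : ℕ} (he : 0 < e) (hQ : Q = q ^ e) (hA : A.LiesOverPrime q)

include hq hQ hA

/-- `red₁ (j(q^Q) - j^Q) = 0` -/
theorem red1_zHall : (redDataBar N A).red ⟨zHall N h, zHall_mem_Rw1 N A h⟩ = 0 := by
  have : Fact q.Prime := ⟨hq⟩
  have : NeZero q := ⟨hq.ne_zero⟩
  have : CharP 𝕜 q := charP_residueField A hq hA
  have : NeZero (q ^ e) := ⟨pow_ne_zero e hq.ne_zero⟩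
  have h1 : (⟨zHall N h, zHall_mem_Rw1 N A h⟩ : (redDataBar N A).Rw) =
      ⟨gen N (idxHall N h), gen_mem_Rw1 N A _⟩ - ⟨gen N (idxOne N), gen_mem_Rw1 N A _⟩ ^ Q :=
    Subtype.ext rfl
  rw [h1, map_sub, map_pow]
  apply Subtype.ext
  rw [coe_sub_pow_Fres,
    coe_red1_gen_of_val N A (idxHall N h) (q ^ e) hQ, coe_red1_gen_of_val N A (idxOne N) 1 rfl,
    qExpand_one_apply, qExpand_pow_jqModC_char 𝕜 q e, hQ]
  exact sub_self _

include he

/-- `red₂ (j(q^Q) - j^Q) ≠ 0` -/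
theorem red2Q_zHall_ne_zero : (redData2Q N A h).red ⟨zHall N h, zHall_mem_Rw2Q N A h⟩ ≠ 0 := by
  have : Fact q.Prime := ⟨hq⟩
  have : NeZero q := ⟨hq.ne_zero⟩
  have : CharP 𝕜 q := charP_residueField A hq hA
  have : NeZero (q ^ e) := ⟨pow_ne_zero e hq.ne_zero⟩
  intro h0
  rw [red2Q_eq] at h0
  have h1 : (⟨wAutQ h (zHall N h), zHall_mem_Rw2Q N A h⟩ : (redDataBar N A).Rw) =
      ⟨gen N (swapHall h (idxHall N h)), gen_mem_Rw1 N A _⟩ -
        ⟨gen N (swapHall h (idxOne N)), gen_mem_Rw1 N A _⟩ ^ Q :=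
    Subtype.ext (wAutQ_zHall N h)
  rw [h1, map_sub, map_pow] at h0
  have h2 : (((redDataBar N A).red ⟨gen N (swapHall h (idxHall N h)), gen_mem_Rw1 N A _⟩ -
      (redDataBar N A).red ⟨gen N (swapHall h (idxOne N)), gen_mem_Rw1 N A _⟩ ^ Q : FresBar N A) :
        LaurentSeries 𝕜) = 0 := by
    rw [h0]; rfl
  rw [coe_sub_pow_Fres,
    coe_red1_gen_of_val N A (swapHall h (idxHall N h)) 1 (swapHall_idxHall_val N h),
    coe_red1_gen_of_val N A (swapHall h (idxOne N)) (q ^ e)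
      ((swapHall_idxOne_val N h).trans hQ),
    qExpand_one_apply] at h2
  have h3 : (jqModC 𝕜 - qExpand 𝕜 (q ^ e) (jqModC 𝕜) ^ Q).coeff (-1) = 0 := by
    rw [h2]; rfl
  rw [HahnSeries.coeff_sub, hQ] at h3
  rw [ModularCurve.coeff_jqModC_neg_one, coeff_neg_one_pow_pow_char 𝕜 q e he, sub_zero] at h3
  exact one_ne_zero h3

omit he in
theorem zHall_mem_nonunits_Rw1 : zHall N h ∈ (redDataBar N A).Rw.nonunits :=
  (RedData_mem_nonunits_iff _ _).mpr ⟨zHall_mem_Rw1 N A h, red1_zHall N A h hq hQ hA⟩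

theorem zHall_not_mem_nonunits_Rw2Q : zHall N h ∉ (redData2Q N A h).Rw.nonunits := by
  intro hz
  obtain ⟨hx, hred⟩ := (RedData_mem_nonunits_iff _ _).mp hz
  exact red2Q_zHall_ne_zero N A h hq he hQ hA hred

/-- **`w₂` is not coarser than `w₁`** -/
theorem not_Rw2Q_le_Rw1 : ¬ (redData2Q N A h).Rw ≤ (redDataBar N A).Rw := by
  intro hle
  have h1 := ValuationSubring.nonunits_le_nonunits.mpr hle
  exact zHall_not_mem_nonunits_Rw2Q N A h hq he hQ hA
    (h1 (zHall_mem_nonunits_Rw1 N A h hq hQ hA))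

/-- **`w₁` is not coarser than `w₂`** -/
theorem not_Rw1_le_Rw2Q : ¬ (redDataBar N A).Rw ≤ (redData2Q N A h).Rw := by
  intro hle
  apply not_Rw2Q_le_Rw1 N A h hq he hQ hA
  intro f hf
  have h1 : wAutQ h f ∈ (redData2Q N A h).Rw := hle ((mem_Rw2Q_iff N A h f).mp hf)
  have h2 := (mem_Rw2Q_iff N A h _).mp h1
  rwa [wAutQ_wAutQ] at h2

/-- **the two Gauss valuations over `q` are different** -/
theorem Rw1_ne_Rw2Q : (redDataBar N A).Rw ≠ (redData2Q N A h).Rw := fun heq =>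
  not_Rw1_le_Rw2Q N A h hq he hQ hA (le_of_eq heq)

end Ne

/-! ### Galois action on the second valuation -/

section Gal

variable {Q : ℕ} {N : ℕ} [NeZero N] {A : ValuationSubring Kbar} {h : HallDvd Q N}

local notation "𝕜" => ResidueField A

/-- **the decomposition group preserves `Rw₂`** -/
theorem galF_mem_Rw2Q {σ : Kbar ≃ₐ[ℚ] Kbar} (hσd : σ ∈ A.decompositionSubgroup ℚ) {f : FN N}
    (hf : f ∈ (redData2Q N A h).Rw) : galF N σ f ∈ (redData2Q N A h).Rw := by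
  rw [mem_Rw2Q_iff, wAutQ_galF]
  exact galF_mem_Rw1 hσd hf

/-- **`red₂ (σ f) = σ~ (red₂ f)`** coefficientwise -/
theorem coe_red2Q_galF {σ : Kbar ≃ₐ[ℚ] Kbar} (hσd : σ ∈ A.decompositionSubgroup ℚ) {f : FN N}
    (hf : f ∈ (redData2Q N A h).Rw) (hf' : galF N σ f ∈ (redData2Q N A h).Rw) :
    (((redData2Q N A h).red ⟨galF N σ f, hf'⟩ : FresBar N A) : LaurentSeries 𝕜) =
      coeffMap (resk A σ hσd)
        (((redData2Q N A h).red ⟨f, hf⟩ : FresBar N A) : LaurentSeries 𝕜) := by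
  rw [red2Q_eq, red2Q_eq]
  have hf1 : wAutQ h f ∈ (redDataBar N A).Rw := hf
  have hf2 : galF N σ (wAutQ h f) ∈ (redDataBar N A).Rw := galF_mem_Rw1 hσd hf1
  have h1 : (⟨wAutQ h (galF N σ f), hf'⟩ : (redDataBar N A).Rw) = ⟨galF N σ (wAutQ h f), hf2⟩ :=
    Subtype.ext (wAutQ_galF h σ f)
  rw [h1]
  exact coe_red1_galF hσd hf1 hf2

/-- **inertia acts trivially on the residue field of `w₂`** -/
theorem red2Q_galF_of_inertia {σ : Kbar ≃ₐ[ℚ] Kbar} (hσ : σ ∈ A.inertiaSubgroupIn ℚ) {f : FN N}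
    (hf : f ∈ (redData2Q N A h).Rw) (hf' : galF N σ f ∈ (redData2Q N A h).Rw) :
    (redData2Q N A h).red ⟨galF N σ f, hf'⟩ = (redData2Q N A h).red ⟨f, hf⟩ := by
  have hσd := Fermat.Agent.S05.mem_decompositionSubgroup_of_mem_inertiaSubgroupIn hσ
  rw [red2Q_eq, red2Q_eq]
  have hf1 : wAutQ h f ∈ (redDataBar N A).Rw := hf
  have hf2 : galF N σ (wAutQ h f) ∈ (redDataBar N A).Rw := galF_mem_Rw1 hσd hf1
  have h1 : (⟨wAutQ h (galF N σ f), hf'⟩ : (redDataBar N A).Rw) = ⟨galF N σ (wAutQ h f), hf2⟩ :=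
    Subtype.ext (wAutQ_galF h σ f)
  rw [h1]
  exact red1_galF_of_inertia hσ hf1 hf2

end Gal

/-! ### Explicit values on `j` and `j_Q = j(q^Q)` -/

section Values

variable {Q : ℕ} (N : ℕ) [NeZero N] (A : ValuationSubring Kbar) (h : HallDvd Q N)

local notation "𝕜" => ResidueField A

/-- `j_Q = j(q^Q)` as an element of `F_N` -/
def jHall : FN N := gen N (idxHall N h)

theorem jHall_eq_jdF [NeZero Q] : jHall N h = jdF N Q h.dvd := gen_eq_jdF (idxHall N h)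

/-- **`W_Q j = j_Q`** -/
theorem wAutQ_jF : wAutQ h (jF N) = jHall N h := by
  rw [jF_eq_gen, wAutQ_gen]
  exact gen_eq_of_val_eq N (swapHall_idxOne_val N h)

/-- **`W_Q j_Q = j`** -/
theorem wAutQ_jHall : wAutQ h (jHall N h) = jF N := by
  rw [← wAutQ_jF, wAutQ_wAutQ]

theorem isRed2Q_jHall : (redData2Q N A h).IsRed (jHall N h) (jt N A) := by
  have hmem : jHall N h ∈ (redData2Q N A h).Rw := gen_mem_Rw2Q N A h _
  refine ⟨hmem, ?_⟩
  rw [red2Q_eq]
  have h1 : (⟨wAutQ h (jHall N h), hmem⟩ : (redDataBar N A).Rw) =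
      ⟨jF N, (isGaussChart_jF_1 N A).choose⟩ := Subtype.ext (wAutQ_jHall N h)
  rw [h1, jt]

variable {q : ℕ} (hq : q.Prime) {e : ℕ} (hQ : Q = q ^ e) (hA : A.LiesOverPrime q)

include hq hQ hA

theorem isRed1_jHall : (redDataBar N A).IsRed (jHall N h) (jt N A ^ Q) := by
  have : Fact q.Prime := ⟨hq⟩
  have : NeZero q := ⟨hq.ne_zero⟩
  have : CharP 𝕜 q := charP_residueField A hq hA
  have : NeZero (q ^ e) := ⟨pow_ne_zero e hq.ne_zero⟩
  refine ⟨gen_mem_Rw1 N A _, ?_⟩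
  apply Subtype.ext
  show (((redDataBar N A).red ⟨gen N (idxHall N h), gen_mem_Rw1 N A _⟩ : FresBar N A) :
    LaurentSeries 𝕜) = ((jt N A : FresBar N A) : LaurentSeries 𝕜) ^ Q
  rw [coe_jt, coe_red1_gen_of_val N A (idxHall N h) (q ^ e) hQ,
    qExpand_pow_jqModC_char 𝕜 q e, hQ]

theorem isRed2Q_jF : (redData2Q N A h).IsRed (jF N) (jt N A ^ Q) := by
  obtain ⟨hx, hred⟩ := isRed1_jHall N A h hq hQ hA
  have hmem : jF N ∈ (redData2Q N A h).Rw := by
    rw [mem_Rw2Q_iff, wAutQ_jF]; exact hx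
  refine ⟨hmem, ?_⟩
  rw [red2Q_eq, ← hred]
  congr 1
  exact Subtype.ext (wAutQ_jF N h)

end Values

end Fermat.Agent.GL.AL
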