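/-
GATE-L / PREP L1-W2 (H3b) (helper54): the Atkin–Lehner automorphism `wAutQ` of `F_N` at a Hall
divisor `Q ∥ N` is `f ↦ f ∘ W_Q` in the realisation of `F_N` by meromorphic functions on `ℍ`:

  `realize_wAutQ : realize N (wAutQ h f) = compPM (wPQ h.pos D) (realize N f)`

for every Bezout datum `D : HallData Q (N / Q)`, and, at level `N = (M' q) q` with `Q = q²`, its
compatibility with the two degeneracy maps `α = alphaB (M' q) q`, `β = betaB (M' q) q :
F_{M' q} → F_{M' q²}` and helper42's `W_q = wAut` of level `M' q`: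

  `W_{q²} ∘ α = β ∘ W_q`,    `W_{q²} ∘ β = α ∘ W_q`.

Generalises helper42's `GK/AL/WRealize.lean`.
-/
import Mathlib
import Fermat.Agent.GL.AL.WHallAut
import Fermat.Agent.GK.AL.WRealize

set_option autoImplicit false

open UpperHalfPlane Complex
open scoped MatrixGroups

noncomputable section

namespace Fermat.Agent.GL.AL

open Fermat.Agent.S24 Fermat.Agent.S28 Fermat.Agent.S28.CuspExp Fermat.Agent.GJ.MerGL
open Fermat.Agent.S24_helper62 Fermat.Agent.S24_helper82 ModularCurve Fermat.Agent.GJ.HN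
open Fermat.Agent.GK.AL

variable {Q N : ℕ}

section Realize

variable [NeZero N] (h : HallDvd Q N) (D : HallData Q (N / Q))

theorem compP_wPQ_genHol (d : DivIdx N) :
    compP (wPQ h.pos D) (genHol N d) = genHol N (swapHall h d) := by
  apply Subtype.ext
  funext τ
  show genFn N d (wPQ h.pos D • τ) = genFn N (swapHall h d) τ
  exact (genFn_swapHall h D d τ).symm

/-- **`W_Q` on functions**: `wAutQ` is precomposition with the Atkin–Lehner matrix. -/
theorem realize_wAutQ (f : FN N) :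
    realize N (wAutQ h f) = compPM (wPQ h.pos D) (realize N f) := by
  have key : (realize N).comp (wAutQ h).toAlgHom = (compPMₐ (wPQ h.pos D)).comp (realize N) := by
    apply algHom_ext_gen
    intro d
    show realize N (wAutQ h (gen N d)) = compPM (wPQ h.pos D) (realize N (gen N d))
    rw [wAutQ_gen, realize_gen, realize_gen, compPM_algebraMap, compP_wPQ_genHol]
  exact DFunLike.congr_fun key f

end Realize

/-! ### Compatibility with the degeneracy maps at level `M' q²` -/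

section Degeneracy

variable {q : ℕ} (M' : ℕ) [NeZero M'] [NeZero q]

omit [NeZero M'] [NeZero q] in
/-- `q²` is a Hall divisor of `(M' q) q` for a prime `q ∤ M'` -/
theorem hallDvd_sq (hq : q.Prime) (hqM : ¬ q ∣ M') : HallDvd (q ^ 2) (M' * q * q) := by
  have hN : M' * q * q = q ^ 2 * M' := by ring
  refine ⟨pow_pos hq.pos 2, ⟨M', hN⟩, ?_⟩
  rw [hN, Nat.mul_div_cancel_left _ (pow_pos hq.pos 2)]
  exact Nat.Coprime.pow_left 2 ((Nat.Prime.coprime_iff_not_dvd hq).mpr hqM)

omit [NeZero M'] [NeZero q] in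
/-- `q ∥ M' q` for a prime `q ∤ M'` -/
theorem exactDvd_mul (hq : q.Prime) (hqM : ¬ q ∣ M') : ExactDvd q (M' * q) :=
  ⟨hq, dvd_mul_left q M', fun h => hqM (by
    rw [pow_two] at h
    exact (Nat.mul_dvd_mul_iff_right hq.pos).mp h)⟩

variable (hQ : HallDvd (q ^ 2) (M' * q * q)) (hq : ExactDvd q (M' * q))

omit [NeZero M'] [NeZero q] in
/-- the `q²`-part of a divisor `d` of `M' q`, viewed at level `M' q²`, and its swap -/
theorem swapHall_val_of_dvd {d : ℕ} (hd : d ∣ M' * q)
    (x : DivIdx (M' * q * q)) (hx : x.1 = d) :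
    (swapHall hQ x).1 = (swapIdx hq ⟨d, hd⟩).1 * q := by
  have hqp := hq.prime
  have hqM : ¬ q ∣ M' := ExactDvd.not_dvd_left M' hq
  have hNQ : M' * q * q / q ^ 2 = M' := by
    have hN : M' * q * q = q ^ 2 * M' := by ring
    rw [hN, Nat.mul_div_cancel_left _ (pow_pos hqp.pos 2)]
  by_cases hqd : q ∣ d
  · obtain ⟨d', rfl⟩ := hqd
    have hd' : d' ∣ M' := by
      have : q * d' ∣ q * M' := by rw [mul_comm q M']; exact hd
      exact (Nat.mul_dvd_mul_iff_left hqp.pos).mp this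
    have h1 : (swapIdx hq ⟨q * d', hd⟩).1 = d' := by
      rw [swapIdx_apply, swapFun_of_dvd hq (dvd_mul_right q d')]
      exact Nat.mul_div_cancel_left _ hqp.pos
    rw [h1, swapHall_val_of_eq hQ x (Q₁ := q) (Q₂ := q) (d' := d') (by ring)
      (by rw [hNQ]; exact hd') hx, mul_comm]
  · have hd' : d ∣ M' := by
      have hc : Nat.Coprime d q := ((Nat.Prime.coprime_iff_not_dvd hqp).mpr hqd).symm
      exact hc.dvd_of_dvd_mul_right hd
    have h1 : (swapIdx hq ⟨d, hd⟩).1 = q * d := by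
      rw [swapIdx_apply, swapFun_of_not_dvd hq hqd]
    rw [h1, swapHall_val_of_eq hQ x (Q₁ := 1) (Q₂ := q ^ 2) (d' := d) (by ring)
      (by rw [hNQ]; exact hd') (by rw [hx, one_mul])]
    ring

/-- **`W_{q²} ∘ α = β ∘ W_q`** -/
theorem wAutQ_alphaB (f : FN (M' * q)) :
    wAutQ hQ (alphaB (M' * q) q f) = betaB (M' * q) q (wAut hq f) := by
  have key : (wAutQ hQ).toAlgHom.comp (alphaB (M' * q) q) =
      (betaB (M' * q) q).comp (wAut hq).toAlgHom := by
    apply algHom_ext_FN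
    intro d _ hd
    show wAutQ hQ (alphaB (M' * q) q (jdF (M' * q) d hd)) =
      betaB (M' * q) q (wAut hq (jdF (M' * q) d hd))
    have hs : (swapIdx hq ⟨d, hd⟩).1 ∣ M' * q := (swapIdx hq ⟨d, hd⟩).2
    have : NeZero (swapIdx hq ⟨d, hd⟩).1 :=
      ⟨fun h0 => NeZero.ne (M' * q) (Nat.eq_zero_of_zero_dvd (h0 ▸ hs))⟩
    rw [alphaB_jdF, ← gen_eq_jdF (N := M' * q) ⟨d, hd⟩, wAut_gen,
      gen_eq_jdF (N := M' * q), betaB_jdF,
      ← gen_eq_jdF (N := M' * q * q) ⟨d, hd.mul_right q⟩,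
      ← gen_eq_jdF (N := M' * q * q)
        ⟨(swapIdx hq ⟨d, hd⟩).1 * q, Nat.mul_dvd_mul_right hs q⟩, wAutQ_gen]
    apply gen_congr
    exact swapHall_val_of_dvd M' hQ hq hd _ rfl
  exact DFunLike.congr_fun key f

/-- **`W_{q²} ∘ β = α ∘ W_q`** -/
theorem wAutQ_betaB (f : FN (M' * q)) :
    wAutQ hQ (betaB (M' * q) q f) = alphaB (M' * q) q (wAut hq f) := by
  have h1 := wAutQ_alphaB M' hQ hq (wAut hq f)
  rw [wAut_wAut] at h1
  rw [← h1, wAutQ_wAutQ]

end Degeneracy

end Fermat.Agent.GL.AL
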