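/-
GATE-L / L3c-W (helper54): the `w₁` / `w₂` rows of the CONCRETE TABLE of the two degeneracy maps

  `π^* = α = alphaB (M' q) q`  (`f(z) ↦ f(z)`),     `π'^* = β = betaB (M' q) q`  (`f(z) ↦ f(q z)`)

`F_{M' q} → F_{M' q²}` for the Gauss valuations `w₁ = redDataBar`, `w₂ = w₁ ∘ W` of both levels
(`R₁, R₂ = redData2Q` at level `M' q²` with `W_{q²}`;  `R₁', R₂' = redData2` at level `M' q` with
helper42's `W_q`).  All four residue fields sit inside `k((X))`: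

* (T1) `α f ∈ R₁ ↔ f ∈ R₁'`, `red₁ (α f) = red₁' f`               (`π` : `w₁ ∣ w₁'`, residue map `id`);
* (T2) `β f ∈ R₁ ↔ f ∈ R₁'`, `red₁ (β f) = (red₁' f)(X^q)`        (`π'`: `w₁ ∣ w₁'`, residue map `X ↦ X^q`);
* (T3) `α f ∈ R₂ ↔ f ∈ R₂'`, `red₂ (α f) = (red₂' f)(X^q)`        (`π` : `w₂ ∣ w₂'`, residue map `X ↦ X^q`);
* (T4) `β f ∈ R₂ ↔ f ∈ R₂'`, `red₂ (β f) = red₂' f`               (`π'`: `w₂ ∣ w₂'`, residue map `id`);

plus the `ValuationSubring.comap` forms and the nonunit forms (`e = 1` in all four entries).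
(T1), (T2) are helper15's `GK/QS/OldRed.lean`; (T3), (T4) follow from them and
`W_{q²} ∘ α = β ∘ W_q`, `W_{q²} ∘ β = α ∘ W_q` (`WHallRealize.lean`).  No cusp expansions.
-/
import Mathlib
import Fermat.Agent.GL.AL.SecondValHall
import Fermat.Agent.GL.AL.WHallRealize
import Fermat.Agent.GK.QS.OldRed

set_option autoImplicit false

noncomputable section

namespace Fermat.Agent.GL.AL.TableW

open HahnSeries ModularCurve IsLocalRing
open Fermat.Agent.S24 Fermat.Agent.S24_helper62 Fermat.Agent.S24_helper82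
open Fermat.Agent.GJ.J1 Fermat.Agent.GJ.J1.Val Fermat.Agent.GJ.HN Fermat.Agent.GK.AL
open Fermat.Agent.GK.QS Fermat.Agent.GL.AL

variable {q : ℕ} (M' : ℕ) [NeZero M'] [NeZero q] (A : ValuationSubring Kbar)
  (hQ : HallDvd (q ^ 2) (M' * q * q)) (hq : ExactDvd q (M' * q))

local notation "𝕜" => ResidueField A

/-! ### (T1), (T2): the first valuation (helper15 `OldRed`, restated) -/

/-- (T1) `w₁(α f) ≥ 0 ↔ w₁'(f) ≥ 0` -/
theorem alphaB_mem_Rw1_iff (f : FN (M' * q)) :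
    alphaB (M' * q) q f ∈ (redDataBar (M' * q * q) A).Rw ↔ f ∈ (redDataBar (M' * q) A).Rw :=
  alpha_mem_RwBar_iff (M' * q) q A f

/-- (T1) `red₁ (α f) = red₁' f` -/
theorem coe_red1_alphaB (f : FN (M' * q)) (hf : f ∈ (redDataBar (M' * q) A).Rw)
    (h : alphaB (M' * q) q f ∈ (redDataBar (M' * q * q) A).Rw) :
    (((redDataBar (M' * q * q) A).red ⟨alphaB (M' * q) q f, h⟩ : FresBar (M' * q * q) A) :
        LaurentSeries 𝕜) =
      (((redDataBar (M' * q) A).red ⟨f, hf⟩ : FresBar (M' * q) A) : LaurentSeries 𝕜) :=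
  coe_red_alpha (M' * q) q A ⟨f, hf⟩ h

/-- (T2) `w₁(β f) ≥ 0 ↔ w₁'(f) ≥ 0` -/
theorem betaB_mem_Rw1_iff (f : FN (M' * q)) :
    betaB (M' * q) q f ∈ (redDataBar (M' * q * q) A).Rw ↔ f ∈ (redDataBar (M' * q) A).Rw :=
  beta_mem_RwBar_iff (M' * q) q A f

/-- (T2) `red₁ (β f) = (red₁' f)(X^q)` -/
theorem coe_red1_betaB (f : FN (M' * q)) (hf : f ∈ (redDataBar (M' * q) A).Rw)
    (h : betaB (M' * q) q f ∈ (redDataBar (M' * q * q) A).Rw) :
    (((redDataBar (M' * q * q) A).red ⟨betaB (M' * q) q f, h⟩ : FresBar (M' * q * q) A) :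
        LaurentSeries 𝕜) =
      qExpand 𝕜 q
        (((redDataBar (M' * q) A).red ⟨f, hf⟩ : FresBar (M' * q) A) : LaurentSeries 𝕜) :=
  coe_red_beta (M' * q) q A ⟨f, hf⟩ h

/-! ### (T3), (T4): the second valuation -/

/-- (T3) `w₂(α f) ≥ 0 ↔ w₂'(f) ≥ 0` -/
theorem alphaB_mem_Rw2Q_iff (f : FN (M' * q)) :
    alphaB (M' * q) q f ∈ (redData2Q (M' * q * q) A hQ).Rw ↔
      f ∈ (redData2 (M' * q) A hq).Rw := by
  rw [mem_Rw2Q_iff, wAutQ_alphaB M' hQ hq, mem_Rw2_iff]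
  exact beta_mem_RwBar_iff (M' * q) q A (wAut hq f)

/-- (T3) `red₂ (α f) = (red₂' f)(X^q)` -/
theorem coe_red2Q_alphaB (f : FN (M' * q)) (hf : f ∈ (redData2 (M' * q) A hq).Rw)
    (h : alphaB (M' * q) q f ∈ (redData2Q (M' * q * q) A hQ).Rw) :
    (((redData2Q (M' * q * q) A hQ).red ⟨alphaB (M' * q) q f, h⟩ : FresBar (M' * q * q) A) :
        LaurentSeries 𝕜) =
      qExpand 𝕜 q
        (((redData2 (M' * q) A hq).red ⟨f, hf⟩ : FresBar (M' * q) A) : LaurentSeries 𝕜) := by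
  rw [red2Q_eq, red2_eq]
  have hf1 : wAut hq f ∈ (redDataBar (M' * q) A).Rw := hf
  have hb : betaB (M' * q) q (wAut hq f) ∈ (redDataBar (M' * q * q) A).Rw :=
    (beta_mem_RwBar_iff (M' * q) q A (wAut hq f)).mpr hf1
  have h1 : (⟨wAutQ hQ (alphaB (M' * q) q f), h⟩ : (redDataBar (M' * q * q) A).Rw) =
      ⟨betaB (M' * q) q (wAut hq f), hb⟩ := Subtype.ext (wAutQ_alphaB M' hQ hq f)
  rw [h1]
  exact coe_red_beta (M' * q) q A ⟨wAut hq f, hf1⟩ hb

/-- (T4) `w₂(β f) ≥ 0 ↔ w₂'(f) ≥ 0` -/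
theorem betaB_mem_Rw2Q_iff (f : FN (M' * q)) :
    betaB (M' * q) q f ∈ (redData2Q (M' * q * q) A hQ).Rw ↔
      f ∈ (redData2 (M' * q) A hq).Rw := by
  rw [mem_Rw2Q_iff, wAutQ_betaB M' hQ hq, mem_Rw2_iff]
  exact alpha_mem_RwBar_iff (M' * q) q A (wAut hq f)

/-- (T4) `red₂ (β f) = red₂' f` -/
theorem coe_red2Q_betaB (f : FN (M' * q)) (hf : f ∈ (redData2 (M' * q) A hq).Rw)
    (h : betaB (M' * q) q f ∈ (redData2Q (M' * q * q) A hQ).Rw) :
    (((redData2Q (M' * q * q) A hQ).red ⟨betaB (M' * q) q f, h⟩ : FresBar (M' * q * q) A) :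
        LaurentSeries 𝕜) =
      (((redData2 (M' * q) A hq).red ⟨f, hf⟩ : FresBar (M' * q) A) : LaurentSeries 𝕜) := by
  rw [red2Q_eq, red2_eq]
  have hf1 : wAut hq f ∈ (redDataBar (M' * q) A).Rw := hf
  have ha : alphaB (M' * q) q (wAut hq f) ∈ (redDataBar (M' * q * q) A).Rw :=
    (alpha_mem_RwBar_iff (M' * q) q A (wAut hq f)).mpr hf1
  have h1 : (⟨wAutQ hQ (betaB (M' * q) q f), h⟩ : (redDataBar (M' * q * q) A).Rw) =
      ⟨alphaB (M' * q) q (wAut hq f), ha⟩ := Subtype.ext (wAutQ_betaB M' hQ hq f)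
  rw [h1]
  exact coe_red_alpha (M' * q) q A ⟨wAut hq f, hf1⟩ ha

/-! ### `ValuationSubring.comap` forms -/

/-- (T1) `w₁ ∘ α = w₁'` -/
theorem comap_alphaB_Rw1 :
    (redDataBar (M' * q * q) A).Rw.comap (alphaB (M' * q) q : FN (M' * q) →+* FN (M' * q * q)) =
      (redDataBar (M' * q) A).Rw := by
  ext f
  rw [ValuationSubring.mem_comap, RingHom.coe_coe]
  exact alphaB_mem_Rw1_iff M' A f

/-- (T2) `w₁ ∘ β = w₁'` -/
theorem comap_betaB_Rw1 :
    (redDataBar (M' * q * q) A).Rw.comap (betaB (M' * q) q : FN (M' * q) →+* FN (M' * q * q)) =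
      (redDataBar (M' * q) A).Rw := by
  ext f
  rw [ValuationSubring.mem_comap, RingHom.coe_coe]
  exact betaB_mem_Rw1_iff M' A f

/-- (T3) `w₂ ∘ α = w₂'` -/
theorem comap_alphaB_Rw2Q :
    (redData2Q (M' * q * q) A hQ).Rw.comap
        (alphaB (M' * q) q : FN (M' * q) →+* FN (M' * q * q)) =
      (redData2 (M' * q) A hq).Rw := by
  ext f
  rw [ValuationSubring.mem_comap, RingHom.coe_coe]
  exact alphaB_mem_Rw2Q_iff M' A hQ hq f

/-- (T4) `w₂ ∘ β = w₂'` -/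
theorem comap_betaB_Rw2Q :
    (redData2Q (M' * q * q) A hQ).Rw.comap
        (betaB (M' * q) q : FN (M' * q) →+* FN (M' * q * q)) =
      (redData2 (M' * q) A hq).Rw := by
  ext f
  rw [ValuationSubring.mem_comap, RingHom.coe_coe]
  exact betaB_mem_Rw2Q_iff M' A hQ hq f

/-! ### nonunit forms (`e = 1` in all four entries) -/

/-- a `w'`-nonunit stays a nonunit along a field embedding with `w ∘ φ = w'` -/
theorem mem_nonunits_of_comap {F' F : Type*} [Field F'] [Field F] (φ : F' →+* F)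
    (W : ValuationSubring F) (W' : ValuationSubring F') (h : W.comap φ = W') (f : F') :
    φ f ∈ W.nonunits ↔ f ∈ W'.nonunits := by
  subst h
  rw [ValuationSubring.mem_nonunits_iff_or, ValuationSubring.mem_nonunits_iff_or, map_eq_zero,
    ← map_inv₀, ValuationSubring.mem_comap]

/-- (T1) nonunits -/
theorem alphaB_mem_nonunits_Rw1_iff (f : FN (M' * q)) :
    alphaB (M' * q) q f ∈ (redDataBar (M' * q * q) A).Rw.nonunits ↔
      f ∈ (redDataBar (M' * q) A).Rw.nonunits :=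
  mem_nonunits_of_comap _ _ _ (comap_alphaB_Rw1 M' A) f

/-- (T2) nonunits -/
theorem betaB_mem_nonunits_Rw1_iff (f : FN (M' * q)) :
    betaB (M' * q) q f ∈ (redDataBar (M' * q * q) A).Rw.nonunits ↔
      f ∈ (redDataBar (M' * q) A).Rw.nonunits :=
  mem_nonunits_of_comap _ _ _ (comap_betaB_Rw1 M' A) f

/-- (T3) nonunits -/
theorem alphaB_mem_nonunits_Rw2Q_iff (f : FN (M' * q)) :
    alphaB (M' * q) q f ∈ (redData2Q (M' * q * q) A hQ).Rw.nonunits ↔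
      f ∈ (redData2 (M' * q) A hq).Rw.nonunits :=
  mem_nonunits_of_comap _ _ _ (comap_alphaB_Rw2Q M' A hQ hq) f

/-- (T4) nonunits -/
theorem betaB_mem_nonunits_Rw2Q_iff (f : FN (M' * q)) :
    betaB (M' * q) q f ∈ (redData2Q (M' * q * q) A hQ).Rw.nonunits ↔
      f ∈ (redData2 (M' * q) A hq).Rw.nonunits :=
  mem_nonunits_of_comap _ _ _ (comap_betaB_Rw2Q M' A hQ hq) f

end Fermat.Agent.GL.AL.TableW
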