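/-
GATE-L / L5-III input (helper54): the ETA-ROW of the valuation table at level `N = M'·q·q`.

`g' = etaQ (M'q) q = Δ(z)/Δ(qz)` at level `M'q` (helper16 `GL/Eta`), `α = alphaB (M'q) q`,
`gN = etaQ N q` at level `N`.  Then `α g' = gN` (same `q`-expansion) and

* (E1) `w₁(gN) = 0` : `gN, gN⁻¹ ∈ Rw₁` (helper16, any level), `red₁ gN = Δ~(Q)/Δ~(Q^q)`;
* (E2) `w₂(gN) = 12·w(q)` : `gN/q¹²` and its inverse lie in `Rw₂` (`w₂ = w₁ ∘ W_{q²}`, the Hall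
  divisor valuation `redData2Q`), `red₂(gN/q¹²) = (Δ~(Q^q)/Δ~(Q))(X^q)`;
* (E3) `w₃(gN) = 0` : `gN, gN⁻¹ ∈ Rw₃` (helper93 `redData3`, helper18 `W3Table`),
  `red₃ gN = (Δ~(Q)/Δ~(Q^q))(t^N)`;
* (E4) the POW TRICK at level `N` : `z ∈ Rw₁`, `z ∈ Rw₃`, `z/q ∈ Rw₂` ⟹ `z¹²/gN ∈ Rw₁, Rw₂, Rw₃`
  (and `RegFin z ⟹ RegFin (z¹²/gN)`), with the three reductions.

This is the row `w(α g) = (0, 12, 0)` consumed by the triple-point pull-back (helper28 2874).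
-/
import Mathlib
import Fermat.Agent.GL.AL.TableW
import Fermat.Agent.GL.Cusp.W3Table
import Fermat.Agent.GL.Eta.Gauss
import Fermat.Agent.GL.Eta.RegFin

set_option autoImplicit false

noncomputable section

namespace Fermat.Agent.GL.AL.EtaRow

open HahnSeries ModularCurve IsLocalRing
open Fermat.Agent.S24 Fermat.Agent.S28 Fermat.Agent.S24_helper62 Fermat.Agent.S24_helper82
open Fermat.Agent.GJ.J1 Fermat.Agent.GJ.J1.Val Fermat.Agent.GJ.HN Fermat.Agent.GK.AL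
open Fermat.Agent.GK.QS Fermat.Agent.GL.AL Fermat.Agent.GL.AL.TableW
open Fermat.Agent.GL.Eta Fermat.Agent.GL.W3 Fermat.Agent.GL.W3Table Fermat.Agent.GL.CuspVal

variable {q : ℕ} (M' : ℕ) [NeZero M'] [NeZero q] (A : ValuationSubring Kbar)
  (hQ : HallDvd (q ^ 2) (M' * q * q)) (hq : ExactDvd q (M' * q))

local notation "𝕜" => ResidueField A

/-- the eta quotient `Δ(z)/Δ(qz)` at the top level `N = M'·q·q` -/
abbrev gTop : FN (M' * q * q) := etaQ (M' * q * q) q (dvd_mul_left q (M' * q))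

/-- (E0) `α (Δ(z)/Δ(qz)) = Δ(z)/Δ(qz)` : the eta quotient of level `M'q` is the one of level `N` -/
theorem alphaB_etaQ :
    alphaB (M' * q) q (etaQ (M' * q) q hq.dvd) = gTop (q := q) M' := by
  apply Subtype.ext
  refine (ModularCurve.coe_heckeAlphaBar (L := Kbar) (M' * q) q _).trans ?_
  rw [coe_etaQ, coe_etaQ]

theorem gTop_ne_zero : gTop (q := q) M' ≠ 0 := etaQ_ne_zero _ _ _

/-! ### (E1) the first valuation -/

theorem gTop_mem_Rw1 : gTop (q := q) M' ∈ (redDataBar (M' * q * q) A).Rw :=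
  etaQ_mem_Rw1 _ A _ _

theorem gTop_inv_mem_Rw1 : (gTop (q := q) M')⁻¹ ∈ (redDataBar (M' * q * q) A).Rw :=
  etaQ_inv_mem_Rw1 _ A _ _

theorem coe_red1_gTop (hm : gTop (q := q) M' ∈ (redDataBar (M' * q * q) A).Rw) :
    (((redDataBar (M' * q * q) A).red ⟨gTop (q := q) M', hm⟩ : FresBar (M' * q * q) A) :
      LaurentSeries 𝕜) = uInvS 𝕜 q :=
  coe_red1_etaQ _ A _ _ hm

theorem coe_red1_gTop_inv (hm : (gTop (q := q) M')⁻¹ ∈ (redDataBar (M' * q * q) A).Rw) :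
    (((redDataBar (M' * q * q) A).red ⟨(gTop (q := q) M')⁻¹, hm⟩ : FresBar (M' * q * q) A) :
      LaurentSeries 𝕜) = uS 𝕜 q :=
  coe_red1_etaQ_inv _ A _ _ hm

/-! ### (E2) the second valuation: `w₂(gN) = 12 w(q)` -/

include hq in
theorem alphaB_etaQ_div :
    alphaB (M' * q) q (etaQ (M' * q) q hq.dvd / (q : FN (M' * q)) ^ 12) =
      gTop (q := q) M' / (q : FN (M' * q * q)) ^ 12 := by
  rw [map_div₀, map_pow, map_natCast, alphaB_etaQ M' hq]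

include hq in
theorem gTop_div_mem_Rw2Q :
    gTop (q := q) M' / (q : FN (M' * q * q)) ^ 12 ∈ (redData2Q (M' * q * q) A hQ).Rw := by
  rw [← alphaB_etaQ_div M' hq, alphaB_mem_Rw2Q_iff M' A hQ hq]
  exact etaQ_div_mem_Rw2 A hq

include hq in
theorem gTop_div_inv_mem_Rw2Q :
    (gTop (q := q) M' / (q : FN (M' * q * q)) ^ 12)⁻¹ ∈ (redData2Q (M' * q * q) A hQ).Rw := by
  rw [← alphaB_etaQ_div M' hq, ← map_inv₀, alphaB_mem_Rw2Q_iff M' A hQ hq]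
  exact etaQ_div_inv_mem_Rw2 A hq

include hq in
/-- `red₂ (gN/q¹²) = (Δ~(Q^q)/Δ~(Q))(X^q)` -/
theorem coe_red2Q_gTop_div
    (hm : gTop (q := q) M' / (q : FN (M' * q * q)) ^ 12 ∈ (redData2Q (M' * q * q) A hQ).Rw) :
    (((redData2Q (M' * q * q) A hQ).red ⟨_, hm⟩ : FresBar (M' * q * q) A) : LaurentSeries 𝕜) =
      qExpand 𝕜 q (uS 𝕜 q) := by
  have hm' : alphaB (M' * q) q (etaQ (M' * q) q hq.dvd / (q : FN (M' * q)) ^ 12) ∈
      (redData2Q (M' * q * q) A hQ).Rw := by rw [alphaB_etaQ_div M' hq]; exact hm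
  have h1 : (⟨_, hm⟩ : (redData2Q (M' * q * q) A hQ).Rw) = ⟨_, hm'⟩ :=
    Subtype.ext (alphaB_etaQ_div M' hq).symm
  rw [h1, coe_red2Q_alphaB M' A hQ hq _ (etaQ_div_mem_Rw2 A hq) hm', coe_red2_etaQ_div]

include hq in
/-- `red₂ (q¹²/gN) = (Δ~(Q)/Δ~(Q^q))(X^q)` -/
theorem coe_red2Q_gTop_div_inv
    (hm : (gTop (q := q) M' / (q : FN (M' * q * q)) ^ 12)⁻¹ ∈
      (redData2Q (M' * q * q) A hQ).Rw) :
    (((redData2Q (M' * q * q) A hQ).red ⟨_, hm⟩ : FresBar (M' * q * q) A) : LaurentSeries 𝕜) =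
      qExpand 𝕜 q (uInvS 𝕜 q) := by
  have e : alphaB (M' * q) q ((etaQ (M' * q) q hq.dvd / (q : FN (M' * q)) ^ 12)⁻¹) =
      (gTop (q := q) M' / (q : FN (M' * q * q)) ^ 12)⁻¹ := by
    rw [map_inv₀, alphaB_etaQ_div M' hq]
  have hm' : alphaB (M' * q) q ((etaQ (M' * q) q hq.dvd / (q : FN (M' * q)) ^ 12)⁻¹) ∈
      (redData2Q (M' * q * q) A hQ).Rw := by rw [e]; exact hm
  have h1 : (⟨_, hm⟩ : (redData2Q (M' * q * q) A hQ).Rw) = ⟨_, hm'⟩ := Subtype.ext e.symm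
  rw [h1, coe_red2Q_alphaB M' A hQ hq _ (etaQ_div_inv_mem_Rw2 A hq) hm', coe_red2_etaQ_div_inv]

include hq in
/-- `gN ∈ Rw₂` as soon as `q ∈ A` -/
theorem gTop_mem_Rw2Q (hqA : (q : Kbar) ∈ A) :
    gTop (q := q) M' ∈ (redData2Q (M' * q * q) A hQ).Rw := by
  rw [← alphaB_etaQ M' hq, alphaB_mem_Rw2Q_iff M' A hQ hq]
  exact etaQ_mem_Rw2 A hq hqA

include hq in
/-- for `A` over `q`: `gN` is a `w₂`-nonunit -/
theorem gTop_mem_nonunits_Rw2Q (hqA : (q : Kbar) ∈ A.nonunits) :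
    gTop (q := q) M' ∈ (redData2Q (M' * q * q) A hQ).Rw.nonunits := by
  rw [← alphaB_etaQ M' hq, alphaB_mem_nonunits_Rw2Q_iff M' A hQ hq]
  exact etaQ_mem_nonunits_Rw2 A hq hqA

/-! ### (E3) the third valuation -/

include hq in
theorem gTop_mem_Rw3 (hqp : q.Prime) :
    gTop (q := q) M' ∈ (redData3 (M' * q * q) A q).Rw := by
  rw [← alphaB_etaQ M' hq, alphaB_mem_Rw3_iff A hqp]
  exact etaQ_mem_Rw1 _ A _ _

include hq in
theorem gTop_inv_mem_Rw3 (hqp : q.Prime) :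
    (gTop (q := q) M')⁻¹ ∈ (redData3 (M' * q * q) A q).Rw := by
  rw [← alphaB_etaQ M' hq, ← map_inv₀, alphaB_mem_Rw3_iff A hqp]
  exact etaQ_inv_mem_Rw1 _ A _ _

include hq in
/-- `red₃ gN = (Δ~(Q)/Δ~(Q^q))(t^N)` -/
theorem coe_red3_gTop (hqp : q.Prime)
    (hm : gTop (q := q) M' ∈ (redData3 (M' * q * q) A q).Rw) :
    (((redData3 (M' * q * q) A q).red ⟨_, hm⟩ :
        FresCusp (M' * q * q) A (cusp3 (M' * q * q) q)) : LaurentSeries 𝕜) =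
      qExpand 𝕜 (M' * q * q) (uInvS 𝕜 q) := by
  have hm' : alphaB (M' * q) q (etaQ (M' * q) q hq.dvd) ∈ (redData3 (M' * q * q) A q).Rw := by
    rw [alphaB_etaQ M' hq]; exact hm
  have h1 : (⟨_, hm⟩ : (redData3 (M' * q * q) A q).Rw) = ⟨_, hm'⟩ :=
    Subtype.ext (alphaB_etaQ M' hq).symm
  rw [h1, coe_red3_alphaB A hqp _ (etaQ_mem_Rw1 _ A _ _) hm', coe_red1_etaQ]

include hq in
/-- `red₃ gN⁻¹ = (Δ~(Q^q)/Δ~(Q))(t^N)` -/
theorem coe_red3_gTop_inv (hqp : q.Prime)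
    (hm : (gTop (q := q) M')⁻¹ ∈ (redData3 (M' * q * q) A q).Rw) :
    (((redData3 (M' * q * q) A q).red ⟨_, hm⟩ :
        FresCusp (M' * q * q) A (cusp3 (M' * q * q) q)) : LaurentSeries 𝕜) =
      qExpand 𝕜 (M' * q * q) (uS 𝕜 q) := by
  have e : alphaB (M' * q) q ((etaQ (M' * q) q hq.dvd)⁻¹) = (gTop (q := q) M')⁻¹ := by
    rw [map_inv₀, alphaB_etaQ M' hq]
  have hm' : alphaB (M' * q) q ((etaQ (M' * q) q hq.dvd)⁻¹) ∈
      (redData3 (M' * q * q) A q).Rw := by rw [e]; exact hm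
  have h1 : (⟨_, hm⟩ : (redData3 (M' * q * q) A q).Rw) = ⟨_, hm'⟩ := Subtype.ext e.symm
  rw [h1, coe_red3_alphaB A hqp _ (etaQ_inv_mem_Rw1 _ A _ _) hm', coe_red1_etaQ_inv]

/-! ### regularity off the cusps -/

theorem regFin_gTop : RegFin Kbar (jF (M' * q * q)) (gTop (q := q) M') := regFin_etaQ _ _ _

theorem regFin_gTop_inv : RegFin Kbar (jF (M' * q * q)) (gTop (q := q) M')⁻¹ :=
  regFin_etaQ_inv _ _ _

/-! ### (E4) the pow trick at level `N` -/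

variable {M' A}

theorem pow_div_gTop_regFin {z : FN (M' * q * q)} (hz : RegFin Kbar (jF (M' * q * q)) z) :
    RegFin Kbar (jF (M' * q * q)) (z ^ 12 / gTop (q := q) M') := by
  rw [div_eq_mul_inv]
  exact (hz.pow 12).mul (regFin_gTop_inv M')

theorem pow_div_gTop_mem_Rw1 {z : FN (M' * q * q)} (hz : z ∈ (redDataBar (M' * q * q) A).Rw) :
    z ^ 12 / gTop (q := q) M' ∈ (redDataBar (M' * q * q) A).Rw := by
  rw [div_eq_mul_inv]
  exact mul_mem (pow_mem hz 12) (gTop_inv_mem_Rw1 M' A)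

theorem pow_div_gTop_eq (z : FN (M' * q * q)) :
    z ^ 12 / gTop (q := q) M' =
      (z / (q : FN (M' * q * q))) ^ 12 * (gTop (q := q) M' / (q : FN (M' * q * q)) ^ 12)⁻¹ := by
  have hg := gTop_ne_zero (q := q) M'
  have hq0 : (q : FN (M' * q * q)) ≠ 0 := Nat.cast_ne_zero.2 (NeZero.ne q)
  field_simp

include hq in
theorem pow_div_gTop_mem_Rw2Q {z : FN (M' * q * q)}
    (hz : z / (q : FN (M' * q * q)) ∈ (redData2Q (M' * q * q) A hQ).Rw) :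
    z ^ 12 / gTop (q := q) M' ∈ (redData2Q (M' * q * q) A hQ).Rw := by
  rw [pow_div_gTop_eq]
  exact mul_mem (pow_mem hz 12) (gTop_div_inv_mem_Rw2Q M' A hQ hq)

include hq in
theorem pow_div_gTop_mem_Rw3 (hqp : q.Prime) {z : FN (M' * q * q)}
    (hz : z ∈ (redData3 (M' * q * q) A q).Rw) :
    z ^ 12 / gTop (q := q) M' ∈ (redData3 (M' * q * q) A q).Rw := by
  rw [div_eq_mul_inv]
  exact mul_mem (pow_mem hz 12) (gTop_inv_mem_Rw3 M' A hq hqp)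

/-- `red₁ (z¹²/gN) = (red₁ z)¹² · Δ~(Q^q)/Δ~(Q)` -/
theorem coe_red1_pow_div_gTop {z : FN (M' * q * q)} (hz : z ∈ (redDataBar (M' * q * q) A).Rw)
    (hm : z ^ 12 / gTop (q := q) M' ∈ (redDataBar (M' * q * q) A).Rw) :
    (((redDataBar (M' * q * q) A).red ⟨_, hm⟩ : FresBar (M' * q * q) A) : LaurentSeries 𝕜) =
      (((redDataBar (M' * q * q) A).red ⟨z, hz⟩ : FresBar (M' * q * q) A) : LaurentSeries 𝕜) ^ 12
        * uS 𝕜 q := by
  have e : (⟨_, hm⟩ : (redDataBar (M' * q * q) A).Rw) =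
      (⟨z, hz⟩ : (redDataBar (M' * q * q) A).Rw) ^ 12 *
        ⟨(gTop (q := q) M')⁻¹, gTop_inv_mem_Rw1 M' A⟩ := Subtype.ext (div_eq_mul_inv _ _)
  rw [e, map_mul, map_pow, MulMemClass.coe_mul, SubmonoidClass.coe_pow, coe_red1_gTop_inv]

include hq in
/-- `red₂ (z¹²/gN) = (red₂ (z/q))¹² · (Δ~(Q)/Δ~(Q^q))(X^q)` -/
theorem coe_red2Q_pow_div_gTop {z : FN (M' * q * q)}
    (hz : z / (q : FN (M' * q * q)) ∈ (redData2Q (M' * q * q) A hQ).Rw)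
    (hm : z ^ 12 / gTop (q := q) M' ∈ (redData2Q (M' * q * q) A hQ).Rw) :
    (((redData2Q (M' * q * q) A hQ).red ⟨_, hm⟩ : FresBar (M' * q * q) A) : LaurentSeries 𝕜) =
      (((redData2Q (M' * q * q) A hQ).red ⟨_, hz⟩ : FresBar (M' * q * q) A) : LaurentSeries 𝕜) ^ 12
        * qExpand 𝕜 q (uInvS 𝕜 q) := by
  have e : (⟨_, hm⟩ : (redData2Q (M' * q * q) A hQ).Rw) =
      (⟨_, hz⟩ : (redData2Q (M' * q * q) A hQ).Rw) ^ 12 *
        ⟨_, gTop_div_inv_mem_Rw2Q M' A hQ hq⟩ := Subtype.ext (pow_div_gTop_eq z)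
  rw [e, map_mul, map_pow, MulMemClass.coe_mul, SubmonoidClass.coe_pow,
    coe_red2Q_gTop_div_inv M' A hQ hq]

include hq in
/-- `red₃ (z¹²/gN) = (red₃ z)¹² · (Δ~(Q^q)/Δ~(Q))(t^N)` -/
theorem coe_red3_pow_div_gTop (hqp : q.Prime) {z : FN (M' * q * q)}
    (hz : z ∈ (redData3 (M' * q * q) A q).Rw)
    (hm : z ^ 12 / gTop (q := q) M' ∈ (redData3 (M' * q * q) A q).Rw) :
    (((redData3 (M' * q * q) A q).red ⟨_, hm⟩ :
        FresCusp (M' * q * q) A (cusp3 (M' * q * q) q)) : LaurentSeries 𝕜) =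
      (((redData3 (M' * q * q) A q).red ⟨z, hz⟩ :
        FresCusp (M' * q * q) A (cusp3 (M' * q * q) q)) : LaurentSeries 𝕜) ^ 12
        * qExpand 𝕜 (M' * q * q) (uS 𝕜 q) := by
  have e : (⟨_, hm⟩ : (redData3 (M' * q * q) A q).Rw) =
      (⟨z, hz⟩ : (redData3 (M' * q * q) A q).Rw) ^ 12 *
        ⟨(gTop (q := q) M')⁻¹, gTop_inv_mem_Rw3 M' A hq hqp⟩ := Subtype.ext (div_eq_mul_inv _ _)
  rw [e, map_mul, map_pow, MulMemClass.coe_mul, SubmonoidClass.coe_pow,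
    coe_red3_gTop_inv M' A hq hqp]

end Fermat.Agent.GL.AL.EtaRow
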