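/-
GATE-L / L1b-(H4) in INTERFACE FORM (helper78): the Gauss valuation of `F_N = ℚ̄(X₀(N))`
transported along ANY `ℚ̄`-automorphism `e` of `F_N` which PERMUTES THE GENERATORS
`gen N d = j(q^d)`, `d ∣ N`:

  `e (gen N d) = gen N (s d)`  for some `s : DivIdx N → DivIdx N`.

This generalises helper42's `GK/AL/SecondVal*.lean` (`e = wAut h`, `s = swapIdx h`, `q ∥ N`) to every
such automorphism — in particular to helper54's Atkin–Lehner automorphism `wAutQ h` at a Hall
divisor `Q ∥ N` (`Q = q²` for GATE-L), whose `(H4)` becomes the instance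
`redData2Q N A h := redDataOf N A (wAutQ h)`.

* `redDataOf N A e : RedData ℚ̄ F_N k (FresBar N A)`, `Rw = Rw₁.comap e`, `red = red₁ ∘ e`;
* `gen_mem_Rw`, `coe_red_gen` : `red (j(q^d)) = j~(Q^{s d})`; `isGaussChart_jF`;
* `map_galF` : `e` commutes with the coefficientwise Galois action (it is defined over `ℚ`),
  from the generator property ALONE;
* `galF_mem_Rw`, `coe_red_galF`, `red_galF_of_inertia` : the decomposition group of `A` preserves
  `Rw`, `red (σ f) = σ~ (red f)`, inertia acts trivially on the residue field;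
* `not_le_Rw1`, `not_Rw1_le`, `Rw1_ne` : for `A` over `q`, `Q = q ^ a` (`a ≥ 1`) with `Q ∣ N`,
  `(s 1).1 = Q`, `(s Q).1 = 1`: the transported valuation and `w₁` are incomparable
  (witness `j(q^Q) - j^Q`);
* the explicit reductions of `j` and `j_Q = j(q^Q)` (`IsRed` facts).
-/
import Mathlib
import Fermat.Agent.GK.AL.SecondValGal

set_option autoImplicit false

noncomputable section

namespace Fermat.Agent.GL.AL.SecondValGen

open HahnSeries ModularCurve IsLocalRing
open Fermat.Agent.S24 Fermat.Agent.S24_helper62 Fermat.Agent.S24_helper82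
open Fermat.Agent.GJ.J1 Fermat.Agent.GJ.J1.Val Fermat.Agent.GJ.Kum
open Fermat.Agent.GK.AL

section Basic

variable (N : ℕ) [NeZero N] (A : ValuationSubring Kbar) (e : FN N ≃ₐ[Kbar] FN N)

local notation "𝕜" => ResidueField A

/-- **the Gauss valuation `w₁ ∘ e`** of `F_N` transported along a `ℚ̄`-automorphism `e` -/
def redDataOf : RedData Kbar (FN N) 𝕜 (FresBar N A) :=
  (redDataBar N A).comapAlgEquiv e

theorem mem_Rw_iff (f : FN N) :
    f ∈ (redDataOf N A e).Rw ↔ e f ∈ (redDataBar N A).Rw := Iff.rfl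

theorem red_eq (f : FN N) (hf : f ∈ (redDataOf N A e).Rw) :
    (redDataOf N A e).red ⟨f, hf⟩ = (redDataBar N A).red ⟨e f, hf⟩ := rfl

@[simp] theorem redDataOf_A : (redDataOf N A e).A = A := rfl

theorem symm_mem_Rw_iff (f : FN N) :
    e.symm f ∈ (redDataOf N A e).Rw ↔ f ∈ (redDataBar N A).Rw := by
  rw [mem_Rw_iff, AlgEquiv.apply_symm_apply]

theorem mem_nonunits_Rw_iff (f : FN N) :
    f ∈ (redDataOf N A e).Rw.nonunits ↔ e f ∈ (redDataBar N A).Rw.nonunits :=
  mem_nonunits_comapAlgEquiv _ _ f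

/-- the two reduction data are compatible (same `A`, same residue map) -/
theorem redDataOf_res : (redDataOf N A e).res = (redDataBar N A).res := rfl

end Basic

/-! ### the generators -/

section Gen

variable (N : ℕ) [NeZero N] (A : ValuationSubring Kbar) (e : FN N ≃ₐ[Kbar] FN N)
  {s : DivIdx N → DivIdx N} (he : ∀ d, e (gen N d) = gen N (s d))

local notation "𝕜" => ResidueField A

include he

theorem gen_mem_Rw (d : DivIdx N) : gen N d ∈ (redDataOf N A e).Rw := by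
  rw [mem_Rw_iff, he]
  exact gen_mem_Rw1 N A _

/-- `red (j(q^d)) = j~(Q^{s d})` (any membership proof) -/
theorem coe_red_gen (d : DivIdx N) (hd : gen N d ∈ (redDataOf N A e).Rw) :
    (((redDataOf N A e).red ⟨gen N d, hd⟩ : FresBar N A) : LaurentSeries 𝕜) =
      qExpand 𝕜 (s d).1 (jqModC 𝕜) := by
  rw [red_eq]
  have h1 : (⟨e (gen N d), hd⟩ : (redDataBar N A).Rw) =
      ⟨gen N (s d), gen_mem_Rw1 N A _⟩ := Subtype.ext (he d)
  rw [h1, coe_red1_gen]

/-- `red (j(q^d)) = j~(Q^n)` for `n = (s d).1` -/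
theorem coe_red_gen_of_val (d : DivIdx N) (n : ℕ) [NeZero n] (hn : (s d).1 = n)
    (hd : gen N d ∈ (redDataOf N A e).Rw) :
    (((redDataOf N A e).red ⟨gen N d, hd⟩ : FresBar N A) : LaurentSeries 𝕜) =
      qExpand 𝕜 n (jqModC 𝕜) := by
  subst hn
  exact coe_red_gen N A e he d hd

theorem isGaussChart_jF : (redDataOf N A e).IsGaussChart (jF N) := by
  rw [jF_eq_gen]
  refine ⟨gen_mem_Rw N A e he _, ?_⟩
  apply Fres.transcendental_of_coe
  rw [coe_red_gen N A e he]
  exact transcendental_qExpand_jqModC 𝕜 _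

omit A in
/-- the `σ`-twist of `e` as a `ℚ̄`-algebra homomorphism -/
theorem map_galF (σ : Kbar ≃ₐ[ℚ] Kbar) (f : FN N) :
    e (galF N σ f) = galF N σ (e f) := by
  let tw : FN N →ₐ[Kbar] FN N :=
    { toFun := fun f => (galF N σ).symm (e (galF N σ f))
      map_one' := by simp
      map_mul' := fun a b => by simp
      map_zero' := by simp
      map_add' := fun a b => by simp
      commutes' := fun c => by
        show (galF N σ).symm (e (galF N σ (algebraMap Kbar (FN N) c))) = _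
        rw [galF_algebraMap, AlgEquiv.commutes, galF_symm_algebraMap,
          AlgEquiv.symm_apply_apply] }
  have htw : tw = (e : FN N →ₐ[Kbar] FN N) := by
    apply algHom_ext_gen
    intro d
    show (galF N σ).symm (e (galF N σ (gen N d))) = e (gen N d)
    rw [galF_gen, he, RingEquiv.symm_apply_eq, galF_gen]
  have h1 : (galF N σ).symm (e (galF N σ f)) = e f := DFunLike.congr_fun htw f
  rw [RingEquiv.symm_apply_eq] at h1
  exact h1

omit A in
/-- the same statement, spelled with the prelude's `arithmeticRingAut` -/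
theorem map_arithmeticRingAut (σ : Kbar ≃ₐ[ℚ] Kbar) (f : FN N) :
    e (arithmeticRingAut (modularFunctionFieldFull N) σ f) =
      arithmeticRingAut (modularFunctionFieldFull N) σ (e f) :=
  map_galF N e he σ f

/-! ### Galois: decomposition and inertia groups -/

variable {N A}

/-- **the decomposition group preserves `Rw`** -/
theorem galF_mem_Rw {σ : Kbar ≃ₐ[ℚ] Kbar} (hσd : σ ∈ A.decompositionSubgroup ℚ) {f : FN N}
    (hf : f ∈ (redDataOf N A e).Rw) : galF N σ f ∈ (redDataOf N A e).Rw := by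
  rw [mem_Rw_iff, map_galF N e he]
  exact galF_mem_Rw1 hσd hf

/-- **`red (σ f) = σ~ (red f)`** coefficientwise -/
theorem coe_red_galF {σ : Kbar ≃ₐ[ℚ] Kbar} (hσd : σ ∈ A.decompositionSubgroup ℚ) {f : FN N}
    (hf : f ∈ (redDataOf N A e).Rw) (hf' : galF N σ f ∈ (redDataOf N A e).Rw) :
    (((redDataOf N A e).red ⟨galF N σ f, hf'⟩ : FresBar N A) : LaurentSeries 𝕜) =
      coeffMap (resk A σ hσd)
        (((redDataOf N A e).red ⟨f, hf⟩ : FresBar N A) : LaurentSeries 𝕜) := by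
  rw [red_eq, red_eq]
  have hf1 : e f ∈ (redDataBar N A).Rw := hf
  have hf2 : galF N σ (e f) ∈ (redDataBar N A).Rw := galF_mem_Rw1 hσd hf1
  have h1 : (⟨e (galF N σ f), hf'⟩ : (redDataBar N A).Rw) = ⟨galF N σ (e f), hf2⟩ :=
    Subtype.ext (map_galF N e he σ f)
  rw [h1]
  exact coe_red1_galF hσd hf1 hf2

/-- **inertia acts trivially on the residue field** -/
theorem red_galF_of_inertia {σ : Kbar ≃ₐ[ℚ] Kbar} (hσ : σ ∈ A.inertiaSubgroupIn ℚ) {f : FN N}
    (hf : f ∈ (redDataOf N A e).Rw) (hf' : galF N σ f ∈ (redDataOf N A e).Rw) :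
    (redDataOf N A e).red ⟨galF N σ f, hf'⟩ = (redDataOf N A e).red ⟨f, hf⟩ := by
  have hσd := Fermat.Agent.S05.mem_decompositionSubgroup_of_mem_inertiaSubgroupIn hσ
  rw [red_eq, red_eq]
  have hf1 : e f ∈ (redDataBar N A).Rw := hf
  have hf2 : galF N σ (e f) ∈ (redDataBar N A).Rw := galF_mem_Rw1 hσd hf1
  have h1 : (⟨e (galF N σ f), hf'⟩ : (redDataBar N A).Rw) = ⟨galF N σ (e f), hf2⟩ :=
    Subtype.ext (map_galF N e he σ f)
  rw [h1]
  exact red1_galF_of_inertia hσ hf1 hf2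

end Gen

/-! ### Frobenius powers in characteristic `q` -/

section CharPow

variable (κ : Type*) [Field κ] (q : ℕ) [Fact q.Prime] [NeZero q] [CharP κ q]

/-- `j(Q^n) = j(Q)^n` in characteristic `q`, for `n = q ^ a` -/
theorem qExpand_pow_jqModC_char' (a : ℕ) : ∀ (n : ℕ) [NeZero n], n = q ^ a →
    qExpand κ n (jqModC κ) = jqModC κ ^ n := by
  induction a with
  | zero =>
    intro n _ hn
    rw [pow_zero] at hn
    subst hn
    rw [pow_one]
    exact qExpand_one_apply _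
  | succ a ih =>
    intro n _ hn
    have : NeZero (q ^ a) := ⟨pow_ne_zero a (NeZero.ne q)⟩
    have h1 : qExpand κ n (jqModC κ) =
        qExpand κ q (qExpand κ (q ^ a) (jqModC κ)) := by
      rw [qExpand_qExpand]
      have : NeZero (q * q ^ a) := ⟨mul_ne_zero (NeZero.ne q) (NeZero.ne (q ^ a))⟩
      exact qExpand_congr (by rw [hn, pow_succ, mul_comm]) _
    rw [h1, ih (q ^ a) rfl, map_pow, Fermat.Agent.GJ.J3.QS.qExpand_jqModC_char, ← pow_mul, hn,
      pow_succ, mul_comm]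

/-- `j(Q^(q^a)) = j(Q)^(q^a)` in characteristic `q` -/
theorem qExpand_pow_jqModC_char (a : ℕ) [NeZero (q ^ a)] :
    qExpand κ (q ^ a) (jqModC κ) = jqModC κ ^ (q ^ a) :=
  qExpand_pow_jqModC_char' κ q a (q ^ a) rfl

/-- the coefficient of `Q^{-1}` in a `q^a`-th power (`a ≥ 1`) vanishes in characteristic `q` -/
theorem coeff_neg_one_pow_pow_char (a : ℕ) (ha : 1 ≤ a) (X : LaurentSeries κ) :
    (X ^ (q ^ a)).coeff (-1) = 0 := by
  obtain ⟨b, rfl⟩ := Nat.exists_eq_add_of_le ha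
  rw [add_comm, pow_succ, pow_mul]
  exact coeff_neg_one_pow_char κ q _

end CharPow

/-! ### Incomparability with `w₁` over `q` -/

section Ne

variable {q : ℕ} (N : ℕ) [NeZero N] (A : ValuationSubring Kbar) (e : FN N ≃ₐ[Kbar] FN N)
  {s : DivIdx N → DivIdx N} (he : ∀ d, e (gen N d) = gen N (s d))
  (a : ℕ) (hQN : q ^ a ∣ N)

local notation "𝕜" => ResidueField A

/-- the index `Q = q ^ a` -/
def idxPow : DivIdx N := ⟨q ^ a, hQN⟩

/-- the witness `j(q^Q) - j^Q`, `Q = q ^ a` -/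
def zPow : FN N := gen N (idxPow N a hQN) - gen N (idxOne N) ^ (q ^ a)

theorem zPow_mem_Rw1 : zPow N a hQN ∈ (redDataBar N A).Rw :=
  sub_mem (gen_mem_Rw1 N A _) (pow_mem (gen_mem_Rw1 N A _) _)

include he

theorem map_zPow :
    e (zPow N a hQN) = gen N (s (idxPow N a hQN)) - gen N (s (idxOne N)) ^ (q ^ a) := by
  rw [zPow, map_sub, map_pow, he, he]

theorem zPow_mem_Rw : zPow N a hQN ∈ (redDataOf N A e).Rw := by
  rw [mem_Rw_iff, map_zPow N e he]
  exact sub_mem (gen_mem_Rw1 N A _) (pow_mem (gen_mem_Rw1 N A _) _)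

omit he

variable (hq : q.Prime) (hA : A.LiesOverPrime q)

include hq hA

/-- `red₁ (j(q^Q) - j^Q) = 0` -/
theorem red1_zPow : (redDataBar N A).red ⟨zPow N a hQN, zPow_mem_Rw1 N A a hQN⟩ = 0 := by
  have : Fact q.Prime := ⟨hq⟩
  have : NeZero q := ⟨hq.ne_zero⟩
  have : NeZero (q ^ a) := ⟨pow_ne_zero a hq.ne_zero⟩
  have : CharP 𝕜 q := charP_residueField A hq hA
  have h1 : (⟨zPow N a hQN, zPow_mem_Rw1 N A a hQN⟩ : (redDataBar N A).Rw) =
      ⟨gen N (idxPow N a hQN), gen_mem_Rw1 N A _⟩ -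
        ⟨gen N (idxOne N), gen_mem_Rw1 N A _⟩ ^ (q ^ a) :=
    Subtype.ext rfl
  rw [h1, map_sub, map_pow]
  apply Subtype.ext
  rw [coe_sub_pow_Fres,
    coe_red1_gen_of_val N A (idxPow N a hQN) (q ^ a) rfl,
    coe_red1_gen_of_val N A (idxOne N) 1 rfl,
    qExpand_one_apply, qExpand_pow_jqModC_char 𝕜 q a]
  exact sub_self _

include he

/-- `red (j(q^Q) - j^Q) ≠ 0` for the transported valuation, if `s 1 = Q` and `s Q = 1` -/
theorem red_zPow_ne_zero (ha : 1 ≤ a) (hs1 : (s (idxOne N)).1 = q ^ a)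
    (hsQ : (s (idxPow N a hQN)).1 = 1) :
    (redDataOf N A e).red ⟨zPow N a hQN, zPow_mem_Rw N A e he a hQN⟩ ≠ 0 := by
  have : Fact q.Prime := ⟨hq⟩
  have : NeZero q := ⟨hq.ne_zero⟩
  have : NeZero (q ^ a) := ⟨pow_ne_zero a hq.ne_zero⟩
  have : CharP 𝕜 q := charP_residueField A hq hA
  intro h0
  rw [red_eq] at h0
  have h1 : (⟨e (zPow N a hQN), zPow_mem_Rw N A e he a hQN⟩ : (redDataBar N A).Rw) =
      ⟨gen N (s (idxPow N a hQN)), gen_mem_Rw1 N A _⟩ -
        ⟨gen N (s (idxOne N)), gen_mem_Rw1 N A _⟩ ^ (q ^ a) :=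
    Subtype.ext (map_zPow N e he a hQN)
  rw [h1, map_sub, map_pow] at h0
  have h2 : (((redDataBar N A).red ⟨gen N (s (idxPow N a hQN)), gen_mem_Rw1 N A _⟩ -
      (redDataBar N A).red ⟨gen N (s (idxOne N)), gen_mem_Rw1 N A _⟩ ^ (q ^ a) : FresBar N A) :
        LaurentSeries 𝕜) = 0 := by
    rw [h0]; rfl
  rw [coe_sub_pow_Fres,
    coe_red1_gen_of_val N A (s (idxPow N a hQN)) 1 hsQ,
    coe_red1_gen_of_val N A (s (idxOne N)) (q ^ a) hs1,
    qExpand_one_apply] at h2
  have h3 : (jqModC 𝕜 - qExpand 𝕜 (q ^ a) (jqModC 𝕜) ^ (q ^ a)).coeff (-1) = 0 := by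
    rw [h2]; rfl
  rw [HahnSeries.coeff_sub] at h3
  rw [ModularCurve.coeff_jqModC_neg_one, coeff_neg_one_pow_pow_char 𝕜 q a ha, sub_zero] at h3
  exact one_ne_zero h3

omit he in
theorem zPow_mem_nonunits_Rw1 : zPow N a hQN ∈ (redDataBar N A).Rw.nonunits :=
  (RedData_mem_nonunits_iff _ _).mpr ⟨zPow_mem_Rw1 N A a hQN, red1_zPow N A a hQN hq hA⟩

theorem zPow_not_mem_nonunits_Rw (ha : 1 ≤ a) (hs1 : (s (idxOne N)).1 = q ^ a)
    (hsQ : (s (idxPow N a hQN)).1 = 1) : zPow N a hQN ∉ (redDataOf N A e).Rw.nonunits := by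
  intro hz
  obtain ⟨hx, hred⟩ := (RedData_mem_nonunits_iff _ _).mp hz
  exact red_zPow_ne_zero N A e he a hQN hq hA ha hs1 hsQ hred

/-- **the transported valuation is not coarser than `w₁`** -/
theorem not_le_Rw1 (ha : 1 ≤ a) (hs1 : (s (idxOne N)).1 = q ^ a)
    (hsQ : (s (idxPow N a hQN)).1 = 1) :
    ¬ (redDataOf N A e).Rw ≤ (redDataBar N A).Rw := by
  intro hle
  have h1 := ValuationSubring.nonunits_le_nonunits.mpr hle
  exact zPow_not_mem_nonunits_Rw N A e he a hQN hq hA ha hs1 hsQ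
    (h1 (zPow_mem_nonunits_Rw1 N A a hQN hq hA))

/-- **`w₁` is not coarser than the transported valuation**, for an INVOLUTIVE `e` -/
theorem not_Rw1_le (hee : ∀ f, e (e f) = f) (ha : 1 ≤ a) (hs1 : (s (idxOne N)).1 = q ^ a)
    (hsQ : (s (idxPow N a hQN)).1 = 1) :
    ¬ (redDataBar N A).Rw ≤ (redDataOf N A e).Rw := by
  intro hle
  apply not_le_Rw1 N A e he a hQN hq hA ha hs1 hsQ
  intro f hf
  have h1 : e f ∈ (redDataOf N A e).Rw := hle ((mem_Rw_iff N A e f).mp hf)
  have h2 := (mem_Rw_iff N A e _).mp h1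
  rwa [hee] at h2

/-- **the two Gauss valuations over `q` are different** -/
theorem Rw1_ne (ha : 1 ≤ a) (hs1 : (s (idxOne N)).1 = q ^ a)
    (hsQ : (s (idxPow N a hQN)).1 = 1) :
    (redDataBar N A).Rw ≠ (redDataOf N A e).Rw := fun heq =>
  not_le_Rw1 N A e he a hQN hq hA ha hs1 hsQ (le_of_eq heq.symm)

end Ne

/-! ### Explicit values on `j` and `j_Q = j(q^Q)` -/

section Values

variable {q : ℕ} (N : ℕ) [NeZero N] (A : ValuationSubring Kbar) (e : FN N ≃ₐ[Kbar] FN N)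
  {s : DivIdx N → DivIdx N} (he : ∀ d, e (gen N d) = gen N (s d))
  (a : ℕ) (hQN : q ^ a ∣ N)

local notation "𝕜" => ResidueField A

/-- `j_Q = j(q^Q)`, `Q = q ^ a`, as an element of `F_N` -/
def jPow : FN N := gen N (idxPow N a hQN)

theorem jPow_eq_jdF [NeZero (q ^ a)] : jPow N a hQN = jdF N (q ^ a) hQN :=
  gen_eq_jdF (idxPow N a hQN)

include he

/-- **`e j = j_Q`** if `s 1 = Q` -/
theorem map_jF (hs1 : (s (idxOne N)).1 = q ^ a) : e (jF N) = jPow N a hQN := by
  rw [jF_eq_gen, he]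
  exact gen_eq_of_val_eq N hs1

/-- **`e j_Q = j`** if `s Q = 1` -/
theorem map_jPow (hsQ : (s (idxPow N a hQN)).1 = 1) : e (jPow N a hQN) = jF N := by
  rw [jPow, he, jF_eq_gen]
  exact gen_eq_of_val_eq N hsQ

theorem isRed_jPow (hsQ : (s (idxPow N a hQN)).1 = 1) :
    (redDataOf N A e).IsRed (jPow N a hQN) (jt N A) := by
  have hmem : jPow N a hQN ∈ (redDataOf N A e).Rw := gen_mem_Rw N A e he _
  refine ⟨hmem, ?_⟩
  rw [red_eq]
  have h1 : (⟨e (jPow N a hQN), hmem⟩ : (redDataBar N A).Rw) =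
      ⟨jF N, (isGaussChart_jF_1 N A).choose⟩ := Subtype.ext (map_jPow N e he a hQN hsQ)
  rw [h1, jt]

omit he

variable (hq : q.Prime) (hA : A.LiesOverPrime q)

include hq hA

theorem isRed1_jPow : (redDataBar N A).IsRed (jPow N a hQN) (jt N A ^ (q ^ a)) := by
  have : Fact q.Prime := ⟨hq⟩
  have : NeZero q := ⟨hq.ne_zero⟩
  have : NeZero (q ^ a) := ⟨pow_ne_zero a hq.ne_zero⟩
  have : CharP 𝕜 q := charP_residueField A hq hA
  refine ⟨gen_mem_Rw1 N A _, ?_⟩
  apply Subtype.ext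
  show (((redDataBar N A).red ⟨gen N (idxPow N a hQN), gen_mem_Rw1 N A _⟩ : FresBar N A) :
    LaurentSeries 𝕜) = ((jt N A : FresBar N A) : LaurentSeries 𝕜) ^ (q ^ a)
  rw [coe_jt, coe_red1_gen_of_val N A (idxPow N a hQN) (q ^ a) rfl,
    qExpand_pow_jqModC_char 𝕜 q a]

include he hQN

theorem isRed_jF (hs1 : (s (idxOne N)).1 = q ^ a) :
    (redDataOf N A e).IsRed (jF N) (jt N A ^ (q ^ a)) := by
  obtain ⟨hx, hred⟩ := isRed1_jPow N A a hQN hq hA
  have hmem : jF N ∈ (redDataOf N A e).Rw := by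
    rw [mem_Rw_iff, map_jF N e he a hQN hs1]; exact hx
  refine ⟨hmem, ?_⟩
  rw [red_eq, ← hred]
  congr 1
  exact Subtype.ext (map_jF N e he a hQN hs1)

end Values

/-! ### Sanity check: helper42's `redData2` is the instance `e = wAut h` -/

section Check

variable {q : ℕ} (N : ℕ) [NeZero N] (A : ValuationSubring Kbar) (h : ExactDvd q N)

theorem redData2_eq : redData2 N A h = redDataOf N A (wAut h) := rfl

end Check

end Fermat.Agent.GL.AL.SecondValGen
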